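import Fermat.Agent.FF.RiemannRoch

/-!
# Functions regular away from a finite set of places

Riemann–Roch provides functions with poles in a given set of places and prescribed behaviour at
one place.
-/

noncomputable section

open AlgebraicCurve

namespace Fermat.Agent.Pic

variable {K F : Type*} [Field K] [Field F] [Algebra K F]

/-- Functions with poles only in `S`. -/
def regularOff (S : Finset (Place K F)) : Subalgebra K F where
  carrier := {f | ∀ v : Place K F, v ∉ S → f ∈ v.toValuationSubring}
  mul_mem' hf hg v hv := mul_mem (hf v hv) (hg v hv)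
  add_mem' hf hg v hv := add_mem (hf v hv) (hg v hv)
  algebraMap_mem' a v _ := v.algebraMap_mem' a

theorem mem_regularOff {S : Finset (Place K F)} {f : F} :
    f ∈ regularOff S ↔ ∀ v : Place K F, v ∉ S → 0 ≤ v.ord f :=
  forall₂_congr fun v _ => FF.mem_iff_ord_nonneg v

theorem regularOff_mono {S T : Finset (Place K F)} (h : S ⊆ T) : regularOff S ≤ regularOff T :=
  fun _ hf v hv => hf v fun hvS => hv (h hvS)

variable [IsAlgClosed K] [FF.IsFunctionField K F]

/-- A bound above which every divisor is attained exactly at each place. -/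
theorem exists_bound_exact : ∃ N : ℤ, ∀ (D : Divisor K F) (P : Place K F),
    N ≤ Divisor.degree D → ∃ f : F, f ≠ 0 ∧ f ∈ riemannRochSpace D ∧ P.ord f = -D P := by
  obtain ⟨N, hN⟩ := FF.exists_degree_bound (K := K) (F := F)
  refine ⟨N + 1, fun D P hD => ?_⟩
  set E := D - Finsupp.single P 1 with hE
  have hDE : D = E + Finsupp.single P 1 := by rw [hE, sub_add_cancel]
  have hdeg : Divisor.degree D = Divisor.degree E + 1 := by rw [hDE, FF.degree_add_single]
  rcases FF.rrSpace_step E P with h | ⟨f, hf0, hford, -, h⟩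
  · exfalso
    have h0 : FF.ell D = FF.ell E := by
      rw [hDE]
      exact congrArg (fun p : Submodule K F => Module.finrank K p) h
    have h1 := FF.riemann_roch D
    have h2 := FF.riemann_roch E
    rw [hN D (by omega)] at h1
    rw [hN E (by omega)] at h2
    omega
  · refine ⟨f, hf0, ?_, ?_⟩
    · rw [hDE, h]
      exact Submodule.mem_sup_right (Submodule.mem_span_singleton_self f)
    · rw [hford, hE, Finsupp.sub_apply, Finsupp.single_eq_same]
      ring

/-- The divisor `n ΣS - ΣT`. -/
def boundDiv (S T : Finset (Place K F)) (n : ℕ) : Divisor K F :=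
  (∑ v ∈ S, Finsupp.single v (n : ℤ)) - ∑ v ∈ T, Finsupp.single v (1 : ℤ)

omit [IsAlgClosed K] [FF.IsFunctionField K F] in
theorem boundDiv_apply (S T : Finset (Place K F)) (n : ℕ) (v : Place K F)
    [DecidableEq (Place K F)] :
    boundDiv S T n v = (if v ∈ S then (n : ℤ) else 0) - (if v ∈ T then (1 : ℤ) else 0) := by
  simp [boundDiv, Finsupp.sub_apply, Finsupp.finsetSum_apply, Finsupp.single_apply]

theorem degree_boundDiv (S T : Finset (Place K F)) (n : ℕ) :
    Divisor.degree (boundDiv S T n) = S.card * n - T.card := by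
  simp [boundDiv, map_sub, map_sum, FF.place_deg_eq_one]

/-- A function with poles in `S`, zeros on `T` and prescribed behaviour at `P`: a pole if `P ∈ S`,
order zero otherwise. -/
theorem exists_regularOff_exact {S : Finset (Place K F)} (hS : S.Nonempty)
    (T : Finset (Place K F)) (hST : Disjoint S T) {P : Place K F} (hPT : P ∉ T) :
    ∃ f : F, f ≠ 0 ∧ f ∈ regularOff S ∧ (∀ v ∈ T, 0 < v.ord f) ∧
      (P ∈ S → P.ord f < 0) ∧ (P ∉ S → P.ord f = 0) := by
  classical
  obtain ⟨N, hN⟩ := exists_bound_exact (K := K) (F := F)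
  set n := N.toNat + T.card + 1
  obtain ⟨f, hf0, hfD, hfP⟩ := hN (boundDiv S T n) P (by
    rw [degree_boundDiv]
    have h1 : 1 ≤ S.card := hS.card_pos
    have h2 : n ≤ S.card * n := Nat.le_mul_of_pos_left n h1
    omega)
  have hord : ∀ v, -boundDiv S T n v ≤ v.ord f := fun v =>
    ((mem_riemannRochSpace_iff.mp hfD) v).resolve_left hf0
  refine ⟨f, hf0, mem_regularOff.mpr fun v hv => ?_, fun v hv => ?_, fun h => ?_, fun h => ?_⟩
  · have := hord v
    rw [boundDiv_apply, if_neg hv] at this
    split_ifs at this <;> omega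
  · have := hord v
    rw [boundDiv_apply, if_neg (Finset.disjoint_right.mp hST hv), if_pos hv] at this
    omega
  · rw [hfP, boundDiv_apply, if_pos h, if_neg hPT]
    omega
  · rw [hfP, boundDiv_apply, if_neg h, if_neg hPT]
    omega

/-- There is a function whose only poles are at `P`. -/
theorem exists_ord_neg_only (P : Place K F) :
    ∃ t : F, t ≠ 0 ∧ P.ord t < 0 ∧ ∀ v, v ≠ P → 0 ≤ v.ord t := by
  obtain ⟨t, ht0, ht, -, htP, -⟩ := exists_regularOff_exact (Finset.singleton_nonempty P) ∅
    (Finset.disjoint_empty_right _) (Finset.notMem_empty P)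
  exact ⟨t, ht0, htP (Finset.mem_singleton_self P),
    fun v hv => mem_regularOff.mp ht v (by simpa using hv)⟩

end Fermat.Agent.Pic
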