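import Fermat.Agent.Pic.Curve.Places

/-!
# Sections of the structure sheaf of a curve inside the function field

A rational function is a section over an open iff it is regular at all its closed points.
-/

noncomputable section

universe u

open CategoryTheory AlgebraicGeometry AlgebraicCurve TopologicalSpace

namespace Fermat.Agent.Pic

variable {k : Type u} [Field k] {C : Scheme.{u}} [IsIntegral C]
  (c : C ⟶ Spec (CommRingCat.of k))

theorem toField_injective (U : C.Opens) [Nonempty U] : Function.Injective (toField c U) :=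
  C.germToFunctionField_injective U

theorem toField_res {U V : C.Opens} [Nonempty U] [Nonempty V] (h : U ≤ V) (f : Γ(C, V)) :
    toField c U (C.presheaf.map (homOfLE h).op f) = toField c V f :=
  TopCat.Presheaf.germ_res_apply C.presheaf (homOfLE h) (genericPoint C) _ f

variable [IsAlgClosed k] [SmoothOfRelativeDimension 1 c]

omit [AlgebraicGeometry.IsIntegral C] [IsAlgClosed k] in
/-- Every nonempty locally closed subset of `C` contains a closed point. -/
theorem exists_pt_mem {Z : Set C} (hZ : Z.Nonempty) (hZ' : IsLocallyClosed Z) :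
    ∃ x : Pt c, x.1 ∈ Z := by
  have := SmoothOfRelativeDimension.smooth 1 c
  have : JacobsonSpace C := LocallyOfFiniteType.jacobsonSpace c
  obtain ⟨z, hz, hzc⟩ := nonempty_inter_closedPoints hZ hZ'
  exact ⟨⟨z, hzc⟩, hz⟩

theorem mem_placeAt_of_mem {U : C.Opens} [Nonempty U] {x : Pt c} (hx : x.1 ∈ U) (f : Γ(C, U)) :
    toField c U f ∈ (placeAt c x).toValuationSubring :=
  (mem_placeAt c).mpr ⟨_, stalkToField_germ c hx f⟩

/-- A rational function regular at all closed points of an open is a section over it. -/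
theorem exists_toField_eq {U : C.Opens} [Nonempty U] {f : CurveField c}
    (h : ∀ x : Pt c, x.1 ∈ U → f ∈ (placeAt c x).toValuationSubring) :
    ∃ s : Γ(C, U), toField c U s = f := by
  have hloc : ∀ x : Pt c, x.1 ∈ U → ∃ W : C.Opens, x.1 ∈ W ∧ W ≤ U ∧
      ∃ s : Γ(C, W), ∀ [Nonempty W], toField c W s = f := by
    intro x hx
    obtain ⟨a, ha⟩ := (mem_placeAt c).mp (h x hx)
    obtain ⟨W, hxW, s, rfl⟩ := C.presheaf.exists_germ_eq a
    refine ⟨W ⊓ U, ⟨hxW, hx⟩, inf_le_right, C.presheaf.map (homOfLE inf_le_left).op s,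
        fun {_} => ?_⟩
    have : Nonempty W := ⟨⟨_, hxW⟩⟩
    rw [toField_res, ← ha, stalkToField_germ]
  choose W hxW hWU s hs using hloc
  let ι := {x : Pt c // x.1 ∈ U}
  have hcover : U ≤ ⨆ i : ι, W i.1 i.2 := by
    intro y hy
    by_contra hy'
    let V : Set C := (U : Set C) \ ((⨆ i : ι, W i.1 i.2 : C.Opens) : Set C)
    obtain ⟨x, hxU, hxW'⟩ := exists_pt_mem c (Z := V) ⟨y, hy, hy'⟩
      (U.isOpen.isLocallyClosed.inter (isClosed_compl_iff.mpr (Opens.isOpen _)).isLocallyClosed)
    exact hxW' (Opens.mem_iSup.mpr ⟨⟨x, hxU⟩, hxW x hxU⟩)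
  have hcompat : TopCat.Presheaf.IsCompatible C.sheaf.obj (fun i : ι => W i.1 i.2)
      (fun i => s i.1 i.2) := by
    intro i j
    have : Nonempty (W i.1 i.2) := ⟨⟨_, hxW i.1 i.2⟩⟩
    have : Nonempty (W j.1 j.2) := ⟨⟨_, hxW j.1 j.2⟩⟩
    have : Nonempty (W i.1 i.2 ⊓ W j.1 j.2 : C.Opens) :=
      ⟨⟨genericPoint C, ((genericPoint_spec C).mem_open_set_iff (W i.1 i.2).isOpen).mpr
          ⟨_, trivial, hxW i.1 i.2⟩,
        ((genericPoint_spec C).mem_open_set_iff (W j.1 j.2).isOpen).mpr
          ⟨_, trivial, hxW j.1 j.2⟩⟩⟩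
    apply toField_injective c (W i.1 i.2 ⊓ W j.1 j.2)
    exact (toField_res c inf_le_left _).trans
      ((hs i.1 i.2).trans ((toField_res c inf_le_right _).trans (hs j.1 j.2)).symm)
  obtain ⟨g, hg, -⟩ := TopCat.Sheaf.existsUnique_gluing' C.sheaf _ U
    (fun i : ι => homOfLE (hWU i.1 i.2)) hcover _ hcompat
  obtain ⟨z⟩ := ‹Nonempty U›
  obtain ⟨x, hx⟩ := exists_pt_mem c (Z := (U : Set C)) ⟨z.1, z.2⟩ U.isOpen.isLocallyClosed
  refine ⟨g, ?_⟩
  have : Nonempty (W x hx) := ⟨⟨_, hxW x hx⟩⟩
  rw [← hs x hx, ← hg ⟨x, hx⟩]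
  exact (toField_res c _ g).symm

theorem range_toField (U : C.Opens) [Nonempty U] :
    Set.range (toField c U) =
      {f | ∀ x : Pt c, x.1 ∈ U → f ∈ (placeAt c x).toValuationSubring} :=
  Set.Subset.antisymm (Set.range_subset_iff.mpr fun f _ hx => mem_placeAt_of_mem c hx f)
    fun _ h => exists_toField_eq c h

include c in
/-- A closed subset missing the generic point is finite. -/
theorem finite_of_isClosed {Z : Set C} [CompactSpace C] (hZ : IsClosed Z)
    (hZ' : genericPoint C ∉ Z) : Z.Finite := by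
  have := SmoothOfRelativeDimension.smooth 1 c
  have : IsLocallyNoetherian C := LocallyOfFiniteType.isLocallyNoetherian c
  have : NoetherianSpace C :=
    have : IsNoetherian C := {}
    inferInstance
  obtain ⟨S, hSf, hS1, hS2, hSZ⟩ := NoetherianSpace.exists_finite_set_isClosed_irreducible hZ
  rw [hSZ]
  refine hSf.sUnion fun t ht => ?_
  obtain ⟨y, hy⟩ := QuasiSober.sober (hS2 t ht) (hS1 t ht)
  have hyη : y ≠ genericPoint C := fun h => hZ' (hSZ ▸ ⟨t, ht, h ▸ hy.mem⟩)
  rw [← hy.def, (isClosed_of_ne_genericPoint c hyη).closure_eq]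
  exact Set.finite_singleton y

end Fermat.Agent.Pic
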