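import Mathlib.RingTheory.Jacobson.Artinian
import Fermat.Agent.Pic.Curve.Regular
import Fermat.Agent.Pic.Curve.Sections

/-!
# The complement of a nonempty finite set of points of a curve is affine

The sections over the complement of finitely many places are the functions with poles only there,
and this open is affine.
-/

noncomputable section

universe u

open CategoryTheory AlgebraicGeometry AlgebraicCurve TopologicalSpace

namespace Fermat.Agent.Pic

variable {k : Type u} [Field k] [IsAlgClosed k] {C : Scheme.{u}} [IsIntegral C]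
  (c : C ⟶ Spec (CommRingCat.of k)) [IsProper c] [SmoothOfRelativeDimension 1 c]

/-- The closed point of a place. -/
def ptOf (v : Place k (CurveField c)) : Pt c := (ptEquivPlace c).symm v

@[simp] theorem placeAt_ptOf (v : Place k (CurveField c)) : placeAt c (ptOf c v) = v :=
  (ptEquivPlace c).apply_symm_apply v

@[simp] theorem ptOf_placeAt (x : Pt c) : ptOf c (placeAt c x) = x :=
  (ptEquivPlace c).symm_apply_apply x

theorem ptOf_injective : Function.Injective (ptOf c) := (ptEquivPlace c).symm.injective

omit [IsProper c] in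
theorem pt_ne_genericPoint (x : Pt c) : x.1 ≠ genericPoint C := by
  intro h
  have := isDiscreteValuationRing_stalk c x.1 x.2
  exact IsDiscreteValuationRing.not_isField (C.presheaf.stalk x.1)
    (h ▸ Field.toIsField C.functionField)

/-- The open complement of finitely many places. -/
def openCompl (S : Finset (Place k (CurveField c))) : C.Opens :=
  ⟨(⋃ v ∈ S, {(ptOf c v).1})ᶜ,
    (S.finite_toSet.isClosed_biUnion fun v _ => (ptOf c v).2).isOpen_compl⟩

theorem mem_openCompl {S : Finset (Place k (CurveField c))} {x : C} :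
    x ∈ openCompl c S ↔ ∀ v ∈ S, x ≠ (ptOf c v).1 := by
  change x ∈ (⋃ v ∈ S, ({(ptOf c v).1} : Set C))ᶜ ↔ _
  simp

theorem pt_mem_openCompl {S : Finset (Place k (CurveField c))} {x : Pt c} :
    x.1 ∈ openCompl c S ↔ placeAt c x ∉ S := by
  rw [mem_openCompl]
  refine ⟨fun h hx => h _ hx (by rw [ptOf_placeAt]), fun h v hv e => h ?_⟩
  rw [show x = ptOf c v from Subtype.ext e, placeAt_ptOf]
  exact hv

instance nonempty_openCompl (S : Finset (Place k (CurveField c))) :
    Nonempty (openCompl c S) :=
  ⟨⟨genericPoint C, (mem_openCompl c).mpr fun v _ => (pt_ne_genericPoint c (ptOf c v)).symm⟩⟩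

/-- Sections over an open whose closed points are the places outside `S` are the functions with
poles in `S`. -/
theorem range_toField_eq_regularOff {S : Finset (Place k (CurveField c))} {U : C.Opens} [Nonempty U]
    (h : ∀ x : Pt c, x.1 ∈ U ↔ placeAt c x ∉ S) (f : CurveField c) :
    f ∈ Set.range (toField c U) ↔ f ∈ regularOff S := by
  rw [range_toField]
  constructor
  · intro hf v hv
    rw [← placeAt_ptOf c v]
    exact hf _ ((h _).mpr (by rwa [placeAt_ptOf]))
  · exact fun hf x hx => hf _ ((h x).mp hx)

variable {c} in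
/-- The coordinate ring of the open cut out by `S`. -/
def coordEquiv (S : Finset (Place k (CurveField c))) (U : C.Opens) [Nonempty U]
    (h : ∀ x : Pt c, x.1 ∈ U ↔ placeAt c x ∉ S) : regularOff (K := k) S ≃+* Γ(C, U) :=
  (RingEquiv.ofBijective
    ((toField c U).codRestrict (regularOff (K := k) S).toSubring fun s =>
      (range_toField_eq_regularOff c h _).mp ⟨s, rfl⟩)
    ⟨fun _ _ e => toField_injective c U (congrArg Subtype.val e), fun f =>
      let ⟨s, hs⟩ := (range_toField_eq_regularOff c h _).mpr f.2
      ⟨s, Subtype.ext hs⟩⟩).symm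

variable {c} in
theorem toField_coordEquiv (S : Finset (Place k (CurveField c))) (U : C.Opens) [Nonempty U]
    (h : ∀ x : Pt c, x.1 ∈ U ↔ placeAt c x ∉ S) (f : regularOff (K := k) S) :
    toField c U (coordEquiv S U h f) = (f : CurveField c) :=
  congrArg Subtype.val ((coordEquiv S U h).symm_apply_apply f)

/-- Sections over the complement of `S`, as functions. -/
def sectionsEquiv (S : Finset (Place k (CurveField c))) :
    Γ(C, openCompl c S) ≃+* regularOff (K := k) S :=
  (coordEquiv S _ fun _ => pt_mem_openCompl c).symm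

@[simp] theorem coe_sectionsEquiv (S : Finset (Place k (CurveField c)))
    (s : Γ(C, openCompl c S)) :
    (sectionsEquiv c S s : CurveField c) = toField c (openCompl c S) s := rfl

theorem toField_sectionsEquiv_symm (S : Finset (Place k (CurveField c)))
    (f : regularOff (K := k) S) :
    toField c (openCompl c S) ((sectionsEquiv c S).symm f) = f :=
  toField_coordEquiv S _ (fun _ => pt_mem_openCompl c) f

omit [IsProper c] in
/-- At a closed point of an open a section is invertible iff it is nonzero of order zero. -/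
theorem pt_mem_basicOpen {U : C.Opens} [Nonempty U] {x : Pt c} (hx : x.1 ∈ U) (s : Γ(C, U)) :
    x.1 ∈ C.basicOpen s ↔ toField c U s ≠ 0 ∧ (placeAt c x).ord (toField c U s) = 0 := by
  rw [Scheme.mem_basicOpen C s x.1 hx]
  set a := C.presheaf.germ U x.1 hx s
  have ha : stalkToField c x.1 a = toField c U s := stalkToField_germ c hx s
  set v := placeAt c x
  constructor
  · intro hu
    obtain ⟨b, hb⟩ := isUnit_iff_exists_inv.mp hu
    have hmul : toField c U s * stalkToField c x.1 b = 1 := by
      rw [← ha, ← map_mul, hb, map_one]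
    have h0 : toField c U s ≠ 0 := left_ne_zero_of_mul_eq_one hmul
    refine ⟨h0, le_antisymm ?_ ((FF.mem_iff_ord_nonneg v).mp (mem_placeAt_of_mem c hx s))⟩
    have h1 := v.ord_mul h0 (right_ne_zero_of_mul_eq_one hmul)
    rw [hmul, v.ord_one] at h1
    have := (FF.mem_iff_ord_nonneg v).mp ((mem_placeAt c).mpr ⟨b, rfl⟩ :
      stalkToField c x.1 b ∈ v.toValuationSubring)
    omega
  · rintro ⟨h0, hord⟩
    obtain ⟨b, hb⟩ := (mem_placeAt c).mp ((FF.mem_iff_ord_nonneg v).mpr
      (by rw [v.ord_inv, hord]; simp) : (toField c U s)⁻¹ ∈ v.toValuationSubring)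
    refine isUnit_iff_exists_inv.mpr ⟨b, stalkToField_injective c x.1 ?_⟩
    rw [map_mul, map_one, ha, hb, mul_inv_cancel₀ h0]

omit [IsProper c] [IsAlgClosed k] [AlgebraicGeometry.IsIntegral C] in
/-- An open is contained in another if this holds for closed points. -/
theorem le_of_forall_pt {U V : C.Opens} (h : ∀ x : Pt c, x.1 ∈ U → x.1 ∈ V) : U ≤ V := by
  intro y hy
  by_contra hy'
  obtain ⟨x, hxU, hxV⟩ := exists_pt_mem c (Z := (U : Set C) \ V) ⟨y, hy, hy'⟩
    (U.isOpen.isLocallyClosed.inter (isClosed_compl_iff.mpr V.isOpen).isLocallyClosed)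
  exact hxV (h x hxU)

/-- A place outside `S` has a function regular off `S`, of order zero there, with affine basic
open. -/
theorem exists_section_affine_basicOpen {S : Finset (Place k (CurveField c))} (hS : S.Nonempty)
    {P : Place k (CurveField c)} (hP : P ∉ S) :
    ∃ f : regularOff (K := k) S, (f : CurveField c) ≠ 0 ∧ P.ord (f : CurveField c) = 0 ∧
      IsAffineOpen (C.basicOpen ((sectionsEquiv c S).symm f)) := by
  classical
  obtain ⟨_, ⟨V, hV, rfl⟩, hxV, hVS⟩ :=
    C.isBasis_affineOpens.exists_subset_of_mem_open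
      ((pt_mem_openCompl c).mpr (by rwa [placeAt_ptOf]) :
        (ptOf c P).1 ∈ (openCompl c S : Set C)) (openCompl c S).isOpen
  have hcs : CompactSpace C := QuasiCompact.compactSpace_of_compactSpace c
  have hη : genericPoint C ∉ ((V : Set C))ᶜ := fun h =>
    h (((genericPoint_spec C).mem_open_set_iff V.isOpen).mpr ⟨_, trivial, hxV⟩)
  have hfin : {v : Place k (CurveField c) | (ptOf c v).1 ∉ V}.Finite :=
    (finite_of_isClosed c V.isOpen.isClosed_compl hη).preimage
      fun a _ b _ h => ptOf_injective c (Subtype.ext h)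
  obtain ⟨f, hf0, hfS, hfT, -, hfP⟩ := exists_regularOff_exact hS (hfin.toFinset \ S)
    Finset.disjoint_sdiff (P := P)
      (by simp only [Finset.mem_sdiff, Set.Finite.mem_toFinset]; exact fun h => h.1 hxV)
  refine ⟨⟨f, hfS⟩, hf0, hfP hP, ?_⟩
  have hle : C.basicOpen ((sectionsEquiv c S).symm ⟨f, hfS⟩) ≤ V := le_of_forall_pt c fun x hx => by
    have hxS := C.basicOpen_le _ hx
    have h2 := ((pt_mem_basicOpen c hxS _).mp hx).2
    rw [toField_sectionsEquiv_symm] at h2
    by_contra hxV'
    exact (hfT (placeAt c x) (by simp [hxV', (pt_mem_openCompl c).mp hxS])).ne' h2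
  have h := C.basicOpen_res ((sectionsEquiv c S).symm ⟨f, hfS⟩) (homOfLE hVS : V ⟶ openCompl c S).op
  rw [inf_eq_right.mpr hle] at h
  exact h ▸ hV.basicOpen _

omit [IsProper c] in
/-- An ideal without common zeros off `S` is the unit ideal. -/
theorem span_eq_top_of_forall_place {S : Finset (Place k (CurveField c))}
    (I : Ideal (regularOff (K := k) S)) (hne : I ≠ ⊥)
    (hS : ∀ v ∈ S, ∃ f : regularOff (K := k) S, v.ord (f : CurveField c) < 0)
    (h : ∀ v, v ∉ S → ∃ f ∈ I, (f : CurveField c) ≠ 0 ∧ v.ord (f : CurveField c) = 0) : I = ⊤ := by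
  by_contra htop
  obtain ⟨R, hAR, hIR⟩ := Ideal.image_subset_nonunits_valuationSubring
    (A := (regularOff (K := k) S).toSubring) I htop
  have hI : ∀ f ∈ I, (f : CurveField c) = 0 ∨ (f : CurveField c)⁻¹ ∉ R := fun f hf =>
    R.mem_nonunits_iff_or.mp (hIR ⟨f, hf, rfl⟩)
  obtain ⟨a, haI, ha0⟩ := Submodule.exists_mem_ne_zero_of_ne_bot hne
  have hRtop : R ≠ ⊤ := by
    rintro rfl
    exact (hI a haI).elim (fun h0 => ha0 (Subtype.ext h0)) fun h => h trivial
  let v := FF.placeOfValuationSubring (K := k) R
    (fun r => hAR ((regularOff (K := k) S).algebraMap_mem r)) hRtop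
  by_cases hv : v ∈ S
  · obtain ⟨f, hf⟩ := hS v hv
    exact absurd ((FF.mem_iff_ord_nonneg v).mp (hAR f.2)) (not_le.mpr hf)
  · obtain ⟨f, hfI, hf0, hford⟩ := h v hv
    refine (hI f hfI).elim hf0 fun hn => hn ?_
    exact (FF.mem_iff_ord_nonneg v).mpr (by rw [v.ord_inv, hford]; simp)

omit [IsProper c] in
/-- Some function regular off `S` has a pole at a given place of `S`. -/
theorem exists_regular_pole {S : Finset (Place k (CurveField c))} (hS : S.Nonempty)
    {v : Place k (CurveField c)} (hv : v ∈ S) :
    ∃ f : regularOff (K := k) S, v.ord (f : CurveField c) < 0 := by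
  obtain ⟨g, -, hg, -, hgv, -⟩ :=
    exists_regularOff_exact hS (∅ : Finset (Place k (CurveField c)))
      (Finset.disjoint_empty_right S) (Finset.notMem_empty v)
  exact ⟨⟨g, hg⟩, hgv hv⟩

/-- There are infinitely many places. -/
theorem exists_place_notMem (S : Finset (Place k (CurveField c))) : ∃ v, v ∉ S := by
  obtain ⟨x, hx⟩ := exists_pt_mem c (Z := (openCompl c S : Set C))
    ⟨genericPoint C, (mem_openCompl c).mpr fun v _ => (pt_ne_genericPoint c _).symm⟩
    (openCompl c S).isOpen.isLocallyClosed
  exact ⟨placeAt c x, (pt_mem_openCompl c).mp hx⟩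

/-- The complement of finitely many places, at least one, is affine. -/
theorem isAffineOpen_openCompl {S : Finset (Place k (CurveField c))} (hS : S.Nonempty) :
    IsAffineOpen (openCompl c S) := by
  let s : Set Γ(C, openCompl c S) := {a | IsAffineOpen (C.basicOpen a)}
  let J : Ideal (regularOff (K := k) S) := (Ideal.span s).map (sectionsEquiv c S).toRingHom
  have hmem : ∀ v, v ∉ S → ∃ f ∈ J, (f : CurveField c) ≠ 0 ∧ v.ord (f : CurveField c) = 0 := by
    intro v hv
    obtain ⟨f, hf0, hford, hfaff⟩ := exists_section_affine_basicOpen c hS hv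
    refine ⟨f, ?_, hf0, hford⟩
    have h : (sectionsEquiv c S).symm f ∈ Ideal.span s := Ideal.subset_span hfaff
    have := Ideal.mem_map_of_mem (sectionsEquiv c S).toRingHom h
    rwa [RingEquiv.toRingHom_eq_coe, RingEquiv.coe_toRingHom, RingEquiv.apply_symm_apply] at this
  have hne : J ≠ ⊥ := by
    obtain ⟨v, hv⟩ := exists_place_notMem c S
    obtain ⟨f, hfJ, hf0, -⟩ := hmem v hv
    intro hJ
    rw [hJ, Submodule.mem_bot] at hfJ
    exact hf0 (congrArg Subtype.val hfJ)
  have hJ : J = ⊤ :=
    span_eq_top_of_forall_place c J hne (fun v hv => exists_regular_pole c hS hv) hmem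
  refine isAffineOpen_of_isAffineOpen_basicOpen (X := C) (openCompl c S) s ?_ fun a ha => ha
  have h2 := congrArg (Ideal.comap (sectionsEquiv c S).toRingHom) hJ
  exact (Ideal.comap_map_of_bijective (sectionsEquiv c S).toRingHom
    (sectionsEquiv c S).bijective).symm.trans (h2.trans Ideal.comap_top)

/-- Functions regular off `S` form a finitely generated algebra. -/
theorem finiteType_regularOff {S : Finset (Place k (CurveField c))} (hS : S.Nonempty) :
    Algebra.FiniteType k (regularOff (K := k) S) := by
  have hf := (LocallyOfFiniteType.finiteType_appLE (f := c) (isAffineOpen_top _)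
    (isAffineOpen_openCompl c hS) le_top).comp
      (RingHom.FiniteType.of_surjective (Scheme.ΓSpecIso (CommRingCat.of k)).inv.hom
        (Scheme.ΓSpecIso (CommRingCat.of k)).symm.commRingCatIsoToRingEquiv.surjective)
  have h2 := (RingHom.FiniteType.of_surjective (sectionsEquiv c S).toRingHom
    (sectionsEquiv c S).surjective).comp hf
  rw [← RingHom.finiteType_algebraMap]
  convert h2
  refine RingHom.ext fun a => Subtype.ext ?_
  exact (toField_sectionsHom c (openCompl c S) a).symm

/-- A nonzero function regular off `S` has finite-dimensional residue ring. -/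
theorem finite_quotient_span {S : Finset (Place k (CurveField c))} (hS : S.Nonempty)
    (f : regularOff (K := k) S) (hf : f ≠ 0) :
    Module.Finite k (regularOff (K := k) S ⧸ Ideal.span ({f} : Set (regularOff (K := k) S))) := by
  have := finiteType_regularOff c hS
  have : IsNoetherianRing (regularOff (K := k) S) := Algebra.FiniteType.isNoetherianRing k _
  set I := Ideal.span ({f} : Set (regularOff (K := k) S))
  have hmax : ∀ p : Ideal (regularOff (K := k) S), p.IsPrime → p ≠ ⊥ → p.IsMaximal := by
    intro p hp hp0
    let e := sectionsEquiv c S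
    have hU := isAffineOpen_openCompl c hS
    let q : PrimeSpectrum Γ(C, openCompl c S) := ⟨p.comap e.toRingHom, Ideal.IsPrime.comap _⟩
    have hq : IsClosed ({q} : Set (PrimeSpectrum Γ(C, openCompl c S))) := by
      have hne : hU.fromSpec q ≠ genericPoint C := by
        intro h
        have : q = ⊥ := by
          apply hU.fromSpec.isOpenEmbedding.injective
          rw [h]
          exact (congrArg hU.fromSpec (genericPoint_eq_bot_of_affine _)).symm.trans
            (genericPoint_eq_of_isOpenImmersion hU.fromSpec) |>.symm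
        refine hp0 (eq_bot_iff.mpr fun a ha => ?_)
        have h3 : e.symm a ∈ q.asIdeal := by
          show e (e.symm a) ∈ p
          rwa [e.apply_symm_apply]
        rw [this] at h3
        exact e.symm.injective ((Submodule.mem_bot _).mp h3 |>.trans (map_zero _).symm)
      have := (isClosed_of_ne_genericPoint c hne).preimage hU.fromSpec.continuous
      have e2 : hU.fromSpec ⁻¹' {hU.fromSpec q} = {q} :=
        Set.ext fun a => ⟨fun h => hU.fromSpec.isOpenEmbedding.injective h,
          fun h => congrArg hU.fromSpec h⟩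
      exact e2 ▸ this
    have hqm : (p.comap e.toRingHom).IsMaximal :=
      PrimeSpectrum.isClosed_singleton_iff_isMaximal q |>.mp hq
    have h4 := Ideal.IsMaximal.map_bijective (e.toRingHom) e.bijective hqm
    rwa [Ideal.map_comap_of_surjective e.toRingHom e.surjective] at h4
  have : Ring.KrullDimLE 0 (regularOff (K := k) S ⧸ I) := by
    rw [Ring.krullDimLE_zero_iff]
    intro P hP
    have hp : (P.comap (Ideal.Quotient.mk I)).IsPrime := Ideal.IsPrime.comap _
    have hpb : P.comap (Ideal.Quotient.mk I) ≠ ⊥ := fun h => hf <| by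
      have : f ∈ P.comap (Ideal.Quotient.mk I) := by
        rw [Ideal.mem_comap, Ideal.Quotient.eq_zero_iff_mem.mpr (Ideal.mem_span_singleton_self f)]
        exact zero_mem _
      rwa [h, Submodule.mem_bot] at this
    have := hmax _ hp hpb
    rcases Ideal.map_eq_top_or_isMaximal_of_surjective (Ideal.Quotient.mk I)
      Ideal.Quotient.mk_surjective this with h | h
    · rw [Ideal.map_comap_of_surjective _ Ideal.Quotient.mk_surjective] at h
      exact absurd h hP.ne_top
    · rwa [Ideal.map_comap_of_surjective _ Ideal.Quotient.mk_surjective] at h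
  have : IsArtinianRing (regularOff (K := k) S ⧸ I) :=
    isArtinianRing_iff_isNoetherianRing_krullDimLE_zero.mpr ⟨inferInstance, this⟩
  exact Module.finite_iff_isArtinianRing k (regularOff (K := k) S ⧸ I) |>.mpr this

end Fermat.Agent.Pic
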