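import Fermat.Agent.FF.Degree
import Fermat.Agent.Pic.Cech.Cover
import Fermat.Agent.Pic.Curve.Affine

/-!
# The two principal charts of a curve with a base point

A parameter is a function with a single pole; the complements of the pole and of the zeros give a
two-chart cover whose `H¹` of the structure sheaf is finite dimensional.
-/

noncomputable section

universe u

open CategoryTheory AlgebraicGeometry AlgebraicCurve

namespace Fermat.Agent.Pic

variable {k : Type u} [Field k] [IsAlgClosed k] {C : Scheme.{u}} [IsIntegral C]
  (c : C ⟶ Spec (CommRingCat.of k)) [IsProper c] [SmoothOfRelativeDimension 1 c]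

/-- A base place with a function whose only pole is there. -/
structure Parameter where
  /-- The base place. -/
  e : Place k (CurveField c)
  /-- The function, regular away from the base place and with a pole there. -/
  t : CurveField c
  t_ne : t ≠ 0
  pole : e.ord t < 0
  regular : ∀ v, v ≠ e → 0 ≤ v.ord t

omit [IsProper c] in
/-- Every place is the base place of a parameter. -/
theorem exists_parameter (e : Place k (CurveField c)) : ∃ p : Parameter c, p.e = e := by
  obtain ⟨t, ht0, hte, ht⟩ := exists_ord_neg_only e
  exact ⟨⟨e, t, ht0, hte, ht⟩, rfl⟩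

variable {c} (p : Parameter c)

namespace Parameter

/-- The zeros of the parameter. -/
def zeros : Finset (Place k (CurveField c)) := (FF.finite_ord_pos p.t).toFinset

omit [IsProper c] in
@[simp] theorem mem_zeros {v : Place k (CurveField c)} : v ∈ p.zeros ↔ 0 < v.ord p.t := by
  simp [zeros]

omit [IsProper c] in
theorem e_notMem_zeros : p.e ∉ p.zeros := by
  rw [mem_zeros, not_lt]
  exact p.pole.le

omit [IsProper c] in
theorem zeros_nonempty : p.zeros.Nonempty := by
  obtain ⟨v, hv⟩ := FF.exists_place_ord_pos
    (FF.transcendental_of_ord_ne_zero p.e (f := p.t) (ne_of_lt p.pole))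
  exact ⟨v, p.mem_zeros.mpr hv⟩

/-- The poles allowed on the overlap. -/
def both : Finset (Place k (CurveField c)) :=
  haveI := Classical.decEq (Place k (CurveField c))
  insert p.e p.zeros

omit [IsProper c] in
@[simp] theorem mem_both {v : Place k (CurveField c)} : v ∈ p.both ↔ v = p.e ∨ v ∈ p.zeros := by
  simp [both]

omit [IsProper c] in
theorem singleton_subset_both : ({p.e} : Finset (Place k (CurveField c))) ⊆ p.both := by
  intro v hv
  simp_all

omit [IsProper c] in
theorem zeros_subset_both : p.zeros ⊆ p.both := fun _ hv => p.mem_both.mpr (Or.inr hv)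

omit [IsAlgClosed k] [IsProper c] [SmoothOfRelativeDimension 1 c] in
theorem t_mem : p.t ∈ regularOff (K := k) ({p.e} : Finset (Place k (CurveField c))) :=
  mem_regularOff.mpr fun v hv => p.regular v (by simpa using hv)

omit [IsProper c] in
theorem t_inv_mem : p.t⁻¹ ∈ regularOff (K := k) p.zeros := by
  refine mem_regularOff.mpr fun v hv => ?_
  rw [mem_zeros, not_lt] at hv
  rw [v.ord_inv]
  omega

omit [IsProper c] in
/-- A power of the parameter clears the poles at the zeros. -/
theorem exists_pow_mul_mem_e {z : CurveField c} (hz : z ∈ regularOff (K := k) p.both) :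
    ∃ n : ℕ, p.t ^ n * z ∈ regularOff (K := k) ({p.e} : Finset (Place k (CurveField c))) := by
  rcases eq_or_ne z 0 with rfl | hz0
  · exact ⟨0, by simp⟩
  refine ⟨p.zeros.sup fun v => (-v.ord z).toNat, mem_regularOff.mpr fun v hv => ?_⟩
  rw [v.ord_mul (pow_ne_zero _ p.t_ne) hz0, FF.ord_pow]
  have h1 : v ≠ p.e := by simpa using hv
  by_cases h2 : v ∈ p.zeros
  · have h3 : (-v.ord z).toNat ≤ p.zeros.sup fun v => (-v.ord z).toNat :=
      Finset.le_sup (f := fun v : Place k (CurveField c) => (-v.ord z).toNat) h2
    have h4 : 1 ≤ v.ord p.t := p.mem_zeros.mp h2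
    nlinarith [Int.self_le_toNat (-v.ord z)]
  · have h3 := mem_regularOff.mp hz v (by simp [h1, h2])
    have h4 := p.regular v h1
    positivity

omit [IsProper c] in
/-- A power of the inverse parameter clears the pole at the base place. -/
theorem exists_pow_mul_mem_zeros {z : CurveField c} (hz : z ∈ regularOff (K := k) p.both) :
    ∃ n : ℕ, p.t⁻¹ ^ n * z ∈ regularOff (K := k) p.zeros := by
  rcases eq_or_ne z 0 with rfl | hz0
  · exact ⟨0, by simp⟩
  refine ⟨(-p.e.ord z).toNat, mem_regularOff.mpr fun v hv => ?_⟩
  rw [v.ord_mul (pow_ne_zero _ (inv_ne_zero p.t_ne)) hz0, FF.ord_pow, v.ord_inv]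
  rw [mem_zeros, not_lt] at hv
  by_cases h1 : v = p.e
  · subst h1
    have := p.pole
    nlinarith [Int.self_le_toNat (-p.e.ord z)]
  · have h3 := mem_regularOff.mp hz v (by simp [h1, hv])
    have h4 := p.regular v h1
    nlinarith

/-- Functions on the overlap as repartitions: put at the zeros of the parameter, zero elsewhere. -/
def toRep : regularOff (K := k) p.both →ₗ[k] ↥(repartitions k (CurveField c)) where
  toFun f := ⟨Set.indicator (p.zeros : Set (Place k (CurveField c))) fun _ => (f : CurveField c),
    mem_repartitions_of_finite_ord (p.zeros.finite_toSet.subset fun v hv => by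
      by_contra h
      simp [Set.indicator_of_notMem h] at hv)⟩
  map_add' f g := by
    ext v
    by_cases h : v ∈ (p.zeros : Set (Place k (CurveField c))) <;> simp [h]
  map_smul' a f := by
    ext v
    by_cases h : v ∈ (p.zeros : Set (Place k (CurveField c))) <;> simp [h]

omit [IsProper c] in
/-- `H¹` of the structure sheaf of the cover is finite dimensional. -/
theorem finite_h1 :
    Module.Finite k (regularOff (K := k) p.both ⧸
      (LinearMap.range (Subalgebra.inclusion
        (regularOff_mono p.singleton_subset_both)).toLinearMap ⊔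
        LinearMap.range (Subalgebra.inclusion
          (regularOff_mono p.zeros_subset_both)).toLinearMap)) := by
  set W := LinearMap.range (Subalgebra.inclusion
      (regularOff_mono p.singleton_subset_both)).toLinearMap ⊔
        LinearMap.range (Subalgebra.inclusion (regularOff_mono p.zeros_subset_both)).toLinearMap
  let φ : regularOff (K := k) p.both →ₗ[k] H1 (0 : Divisor k (CurveField c)) :=
    (Submodule.mkQ _).comp p.toRep
  have hker : LinearMap.ker φ ≤ W := by
    intro f hf
    rw [LinearMap.mem_ker, LinearMap.comp_apply, Submodule.mkQ_apply,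
      Submodule.Quotient.mk_eq_zero, Submodule.mem_sup] at hf
    obtain ⟨β, hβ, γ, hγ, hsum⟩ := hf
    obtain ⟨g, hg⟩ := mem_principalRepartitions_iff.mp hγ
    have hv : ∀ v : Place k (CurveField c),
        Set.indicator (p.zeros : Set (Place k (CurveField c))) (fun _ => (f : CurveField c)) v - g ∈
          v.toValuationSubring := by
      intro v
      have h1 := congrFun (congrArg Subtype.val hsum) v
      have h2 : (β : Place k (CurveField c) → CurveField c) v =
          Set.indicator (p.zeros : Set (Place k (CurveField c)))
            (fun _ => (f : CurveField c)) v - g := by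
        rw [eq_sub_iff_add_eq, ← congrFun hg v]
        exact h1
      rw [← h2, FF.mem_iff]
      simpa using (mem_repartitionsOf_iff.mp hβ v)
    have hg1 : g ∈ regularOff (K := k) p.zeros := fun v hv' => by
      have h := hv v
      rw [Set.indicator_of_notMem (by simpa using hv'), zero_sub] at h
      simpa using neg_mem h
    have hg0 : (f : CurveField c) - g ∈ regularOff (K := k) ({p.e} : Finset _) := fun v hve => by
      have h := hv v
      by_cases hz : v ∈ p.zeros
      · rwa [Set.indicator_of_mem (by simpa using hz)] at h
      · exact sub_mem (f.2 v (by simp_all)) (hg1 v hz)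
    exact Submodule.mem_sup.mpr ⟨_, ⟨⟨_, hg0⟩, rfl⟩, _, ⟨⟨g, hg1⟩, rfl⟩,
      Subtype.ext (sub_add_cancel _ _)⟩
  have : Module.Finite k (regularOff (K := k) p.both ⧸ LinearMap.ker φ) :=
    Module.Finite.equiv φ.quotKerEquivRange.symm
  exact Module.Finite.of_surjective _ (Submodule.factor_surjective hker)

/-- The cover of the curve by the complement of the pole and of the zeros of the parameter. -/
def cover : Cech.Cover k where
  B0 := regularOff (K := k) ({p.e} : Finset (Place k (CurveField c)))
  B1 := regularOff (K := k) p.zeros
  B01 := regularOff (K := k) p.both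
  r0 := Subalgebra.inclusion (regularOff_mono p.singleton_subset_both)
  r1 := Subalgebra.inclusion (regularOff_mono p.zeros_subset_both)
  t0 := ⟨p.t, p.t_mem⟩
  t1 := ⟨p.t⁻¹, p.t_inv_mem⟩
  mul_t := Subtype.ext (mul_inv_cancel₀ p.t_ne)
  inj0 := Subalgebra.inclusion_injective _
  inj1 := Subalgebra.inclusion_injective _
  surj0 z := by
    obtain ⟨n, hn⟩ := p.exists_pow_mul_mem_e z.2
    exact ⟨n, ⟨_, hn⟩, Subtype.ext (by simp)⟩
  surj1 z := by
    obtain ⟨n, hn⟩ := p.exists_pow_mul_mem_zeros z.2
    exact ⟨n, ⟨_, hn⟩, Subtype.ext (by simp)⟩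
  finiteType0 := finiteType_regularOff c (Finset.singleton_nonempty p.e)
  finiteType1 := finiteType_regularOff c p.zeros_nonempty
  finite_zeros := finite_quotient_span c p.zeros_nonempty _
    fun h => p.t_ne (inv_eq_zero.mp (congrArg Subtype.val h))
  finite_h1 := p.finite_h1
  h0_const b0 b1 h := by
    have hb : (b0 : CurveField c) = b1 := congrArg Subtype.val h
    obtain ⟨a, ha⟩ := FF.mem_range_of_ord_nonneg (K := k) (f := (b0 : CurveField c)) fun v => by
      by_cases hv : v = p.e
      · rw [hb]
        exact mem_regularOff.mp b1.2 v (hv ▸ p.e_notMem_zeros)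
      · exact mem_regularOff.mp b0.2 v (by simpa using hv)
    exact ⟨a, Subtype.ext ha.symm⟩

end Parameter

end Fermat.Agent.Pic
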