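import Mathlib.FieldTheory.IsAlgClosed.Basic
import Mathlib.RingTheory.DiscreteValuationRing.TFAE
import Mathlib.RingTheory.Localization.Submodule
import Mathlib.RingTheory.Nullstellensatz
import Mathlib.RingTheory.Smooth.StandardSmoothCotangent

/-!
# Local rings of smooth curves over an algebraically closed field

A maximal ideal of a standard smooth algebra of relative dimension one localises to a discrete
valuation ring.
-/

noncomputable section

universe u

namespace Fermat.Agent.Pic

open IsLocalRing

variable (k : Type u) [Field k] [IsAlgClosed k] {A : Type u} [CommRing A] [IsDomain A]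
  [Algebra k A] [Algebra.IsStandardSmoothOfRelativeDimension 1 k A]

omit [IsAlgClosed k] [IsDomain A] in
/-- A standard smooth algebra is of finite type. -/
theorem finiteType_of_standardSmooth : Algebra.FiniteType k A := by
  have : Algebra.IsStandardSmooth k A :=
    Algebra.IsStandardSmoothOfRelativeDimension.isStandardSmooth 1
  infer_instance

omit [IsDomain A] in
/-- Residue fields of maximal ideals are `k`. -/
theorem exists_sub_algebraMap_mem (m : Ideal A) [m.IsMaximal] (a : A) :
    ∃ c : k, a - algebraMap k A c ∈ m := by
  have := finiteType_of_standardSmooth k (A := A)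
  let := Ideal.Quotient.field m
  have : Algebra.FiniteType k (A ⧸ m) := Algebra.FiniteType.of_surjective (Ideal.Quotient.mkₐ k m)
    Ideal.Quotient.mk_surjective
  have : Module.Finite k (A ⧸ m) := finite_of_finite_type_of_isJacobsonRing k (A ⧸ m)
  obtain ⟨c, hc⟩ := (IsAlgClosed.algebraMap_bijective_of_isIntegral (k := k) (K := A ⧸ m)).2
    (Ideal.Quotient.mk m a)
  exact ⟨c, (Ideal.Quotient.mk_eq_mk_iff_sub_mem _ _).mp (hc.symm.trans rfl)⟩

include k in
theorem maximal_ne_bot (m : Ideal A) [m.IsMaximal] : m ≠ ⊥ := by
  intro h
  subst h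
  have hsurj : Function.Surjective (algebraMap k A) := fun a => by
    obtain ⟨c, hc⟩ := exists_sub_algebraMap_mem k (⊥ : Ideal A) a
    exact ⟨c, (sub_eq_zero.mp ((Submodule.mem_bot A).mp hc)).symm⟩
  have h1 := Algebra.IsStandardSmoothOfRelativeDimension.rank_kaehlerDifferential (R := k)
      (S := A) 1
  have : Subsingleton Ω[A⁄k] := KaehlerDifferential.subsingleton_of_surjective k A hsurj
  rw [rank_subsingleton'] at h1
  exact zero_ne_one (h1.trans Nat.cast_one)

include k in
/-- The derivation `a ↦ [a - a(m)]` shows that `m` is generated by one element modulo `m ^ 2`. -/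
theorem exists_le_span_sup_sq (m : Ideal A) [m.IsMaximal] :
    ∃ x ∈ m, m ≤ Ideal.span {x} ⊔ m ^ 2 := by
  classical
  choose c hc using exists_sub_algebraMap_mem k m
  have hcu : ∀ a r, a - algebraMap k A r ∈ m → c a = r := fun a r h => by
    by_contra hne
    have h' : algebraMap k A (c a - r) ∈ m := by
      rw [map_sub]
      have := sub_mem h (hc a)
      rwa [sub_sub_sub_cancel_left] at this
    exact ‹m.IsMaximal›.ne_top (m.eq_top_of_isUnit_mem h'
      ((IsUnit.mk0 _ (sub_ne_zero.mpr hne)).map (algebraMap k A)))
  let d : A → m.Cotangent := fun a => m.toCotangent ⟨a - algebraMap k A (c a), hc a⟩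
  have hadd : ∀ a b, c (a + b) = c a + c b := fun a b => hcu _ _ (by
    rw [map_add, add_sub_add_comm]; exact add_mem (hc a) (hc b))
  have hconst : ∀ r, c (algebraMap k A r) = r := fun r => hcu _ _ (by simp)
  have hmul : ∀ a b, c (a * b) = c a * c b := fun a b => hcu _ _ (by
    rw [map_mul, show a * b - algebraMap k A (c a) * algebraMap k A (c b) =
      a * (b - algebraMap k A (c b)) + algebraMap k A (c b) * (a - algebraMap k A (c a)) by ring]
    exact add_mem (Ideal.mul_mem_left _ _ (hc b)) (Ideal.mul_mem_left _ _ (hc a)))
  let D : Derivation k A m.Cotangent := Derivation.mk'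
    { toFun := d
      map_add' := fun a b => by
        simp only [d, ← map_add]
        congr 1
        ext
        simp only [hadd, map_add, Submodule.coe_add]
        ring
      map_smul' := fun r a => by
        simp only [d, RingHom.id_apply, ← algebraMap_smul A r (m.toCotangent _), ← map_smul]
        congr 1
        ext
        simp [Algebra.smul_def, hmul, hconst]
        ring }
    fun a b => by
      simp only [LinearMap.coe_mk, AddHom.coe_mk, d, ← map_smul, ← map_add]
      rw [Ideal.toCotangent_eq]
      simp only [Submodule.coe_add, Submodule.coe_smul_of_tower, smul_eq_mul, hmul, map_mul]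
      rw [show a * b - algebraMap k A (c a) * algebraMap k A (c b) -
          (a * (b - algebraMap k A (c b)) + b * (a - algebraMap k A (c a))) =
          -((a - algebraMap k A (c a)) * (b - algebraMap k A (c b))) by ring, pow_two]
      exact neg_mem (Ideal.mul_mem_mul (hc a) (hc b))
  have : Algebra.IsStandardSmooth k A :=
    Algebra.IsStandardSmoothOfRelativeDimension.isStandardSmooth 1
  have h1 := Algebra.IsStandardSmoothOfRelativeDimension.rank_kaehlerDifferential (R := k)
      (S := A) 1
  have hfr : Module.finrank A Ω[A⁄k] = 1 := Module.finrank_eq_of_rank_eq h1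
  let b := Module.finBasisOfFinrankEq A Ω[A⁄k] hfr
  obtain ⟨⟨x, hx⟩, hxe⟩ := m.toCotangent_surjective (D.liftKaehlerDifferential (b 0))
  refine ⟨x, hx, fun a ha => ?_⟩
  have e : m.toCotangent ⟨a, ha⟩ = D.liftKaehlerDifferential (KaehlerDifferential.D k A a) := by
    rw [Derivation.liftKaehlerDifferential_comp_D]
    simp [D, d, hcu a 0 (by simpa using ha)]
  rw [← b.sum_repr (KaehlerDifferential.D k A a), Fin.sum_univ_one, map_smul, ← hxe, ← map_smul,
    Ideal.toCotangent_eq] at e
  rw [Submodule.mem_sup]
  refine ⟨_, Ideal.mem_span_singleton'.mpr ⟨b.repr (KaehlerDifferential.D k A a) 0, rfl⟩,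
    a - b.repr (KaehlerDifferential.D k A a) 0 * x, by simpa using e, by ring⟩

include k in
/-- The local ring at a maximal ideal is a discrete valuation ring. -/
theorem isDVR_localization_atPrime (m : Ideal A) [m.IsMaximal] :
    IsDiscreteValuationRing (Localization.AtPrime m) := by
  have := finiteType_of_standardSmooth k (A := A)
  have : IsNoetherianRing A := Algebra.FiniteType.isNoetherianRing k A
  obtain ⟨x, hx, hle⟩ := exists_le_span_sup_sq k m
  set f := algebraMap A (Localization.AtPrime m)
  have hM : m.map f = maximalIdeal (Localization.AtPrime m) :=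
    Localization.AtPrime.map_eq_maximalIdeal
  have h := Ideal.map_mono (f := f) hle
  rw [Ideal.map_sup, Ideal.map_pow, Ideal.map_span, Set.image_singleton, hM] at h
  have hxM : f x ∈ maximalIdeal (Localization.AtPrime m) := hM ▸ Ideal.mem_map_of_mem f hx
  have hgen : maximalIdeal (Localization.AtPrime m) = Ideal.span {f x} := by
    refine le_antisymm ?_ ((Ideal.span_singleton_le_iff_mem _).mpr hxM)
    refine Submodule.le_of_le_smul_of_le_jacobson_bot (IsNoetherian.noetherian _)
      (IsLocalRing.maximalIdeal_le_jacobson _) ?_
    rwa [smul_eq_mul, ← pow_two]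
  have : (maximalIdeal (Localization.AtPrime m)).IsPrincipal := ⟨⟨f x, hgen⟩⟩
  have hnf : ¬IsField (Localization.AtPrime m) :=
    fun hfld => maximal_ne_bot k m <| (Ideal.map_eq_bot_iff_of_injective
      (IsLocalization.injective (Localization.AtPrime m) m.primeCompl_le_nonZeroDivisors)).mp
        (hM.trans (IsLocalRing.isField_iff_maximalIdeal_eq.mp hfld))
  exact ((IsDiscreteValuationRing.TFAE _ hnf).out 0 4).mpr ‹_›

end Fermat.Agent.Pic
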