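import Mathlib.AlgebraicGeometry.Morphisms.Smooth
import Fermat.Agent.Pic.Curve.Local

/-!
# Stalks at closed points of a smooth integral curve over an algebraically closed field

Near every point the curve is standard smooth of relative dimension one, so the stalks at closed
points are discrete valuation rings.
-/

noncomputable section

universe u

open CategoryTheory AlgebraicGeometry

namespace Fermat.Agent.Pic

variable {k : Type u} [Field k] {C : Scheme.{u}} (c : C ⟶ Spec (CommRingCat.of k))

/-- The structure of `k`-algebra on the sections over an open. -/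
def sectionsHom (V : C.Opens) : CommRingCat.of k ⟶ Γ(C, V) :=
  (Scheme.ΓSpecIso (CommRingCat.of k)).inv ≫ c.appLE ⊤ V le_top

/-- Every point has an affine neighbourhood standard smooth of dimension one over `k`. -/
theorem exists_affine_standardSmooth [SmoothOfRelativeDimension 1 c] (x : C) :
    ∃ V : C.Opens, IsAffineOpen V ∧ x ∈ V ∧
      RingHom.IsStandardSmoothOfRelativeDimension 1 (sectionsHom c V).hom := by
  obtain ⟨U, hU, V, hV, hx, e, hf⟩ :=
    SmoothOfRelativeDimension.exists_isStandardSmoothOfRelativeDimension (n := 1) (f := c) x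
  have hUtop : U = ⊤ := top_le_iff.mp fun y _ => Subsingleton.elim (c x) y ▸ e hx
  subst hUtop
  exact ⟨V, hV, hx, (RingHom.isStandardSmoothOfRelativeDimension_respectsIso (n := 1)).2
    (c.appLE ⊤ V e).hom (Scheme.ΓSpecIso (CommRingCat.of k)).symm.commRingCatIsoToRingEquiv hf⟩

variable [IsAlgClosed k] [SmoothOfRelativeDimension 1 c] [IsIntegral C]

include c in
/-- The local ring at a closed point is a discrete valuation ring. -/
theorem isDiscreteValuationRing_stalk (x : C) (hx : IsClosed ({x} : Set C)) :
    IsDiscreteValuationRing (C.presheaf.stalk x) := by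
  obtain ⟨V, hV, hxV, hs⟩ := exists_affine_standardSmooth c x
  have : Nonempty V := ⟨⟨x, hxV⟩⟩
  algebraize [(sectionsHom c V).hom]
  have := hV.primeIdealOf_isMaximal_of_isClosed ⟨x, hxV⟩ hx
  let : Algebra Γ(C, V) (C.presheaf.stalk x) :=
    TopCat.Presheaf.algebra_section_stalk C.presheaf (⟨x, hxV⟩ : V)
  have : IsLocalization.AtPrime (C.presheaf.stalk x) (hV.primeIdealOf ⟨x, hxV⟩).asIdeal :=
    hV.isLocalization_stalk ⟨x, hxV⟩
  have := isDVR_localization_atPrime k (hV.primeIdealOf ⟨x, hxV⟩).asIdeal
  exact IsDiscreteValuationRing.RingEquivClass.isDiscreteValuationRing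
    (IsLocalization.algEquiv (hV.primeIdealOf ⟨x, hxV⟩).asIdeal.primeCompl
      (Localization.AtPrime (hV.primeIdealOf ⟨x, hxV⟩).asIdeal)
      (C.presheaf.stalk x)).toRingEquiv

end Fermat.Agent.Pic
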