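import Mathlib.AlgebraicGeometry.Morphisms.Affine
import Mathlib.AlgebraicGeometry.Morphisms.Flat
import Fermat.Agent.Pic.Curve.Stalk

/-!
# Sections of `C × Spec R` over the preimage of an affine open of `C`

For an affine open `U` of `C` with ring `B` the sections over its preimage in `C × Spec R` are `R
⊗ B`.
-/

noncomputable section

universe u

open CategoryTheory CategoryTheory.Limits AlgebraicGeometry TopologicalSpace
open scoped TensorProduct

namespace Fermat.Agent.Pic

variable {k : Type u} [Field k] {C : Scheme.{u}} (c : C ⟶ Spec (CommRingCat.of k))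
  (R : Type u) [CommRing R] [Algebra k R]

/-- The base change map `Spec R → Spec k`. -/
abbrev specMap (k R : Type u) [Field k] [CommRing R] [Algebra k R] :
    Spec (CommRingCat.of R) ⟶ Spec (CommRingCat.of k) :=
  Spec.map (CommRingCat.ofHom (algebraMap k R))

/-- `C × Spec R`. -/
abbrev prodSpec : Scheme.{u} := pullback c (specMap k R)

/-- The preimage of an open of `C`. -/
abbrev prodOpen (U : C.Opens) : (prodSpec c R).Opens := pullback.fst c (specMap k R) ⁻¹ᵁ U

/-- The constants from `R`. -/
def constHom (U : C.Opens) : CommRingCat.of R ⟶ Γ(prodSpec c R, prodOpen c R U) :=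
  (Scheme.ΓSpecIso (CommRingCat.of R)).inv ≫
    (pullback.snd c (specMap k R)).appLE ⊤ (prodOpen c R U) le_top

variable {R}

omit [Algebra k R] in
theorem appTop_comp_appLE {X Y Z P : Scheme.{u}} {f : X ⟶ Z} {g : Y ⟶ Z} {p : P ⟶ X} {q : P ⟶ Y}
    (w : p ≫ f = q ≫ g) (U : X.Opens) :
    g.appTop ≫ q.appLE ⊤ (p ⁻¹ᵁ U) le_top = f.appLE ⊤ U le_top ≫ p.app U := by
  refine (Scheme.Hom.comp_appLE q g ⊤ (p ⁻¹ᵁ U) le_top).symm.trans ?_
  rw [Scheme.Hom.app_eq_appLE, Scheme.Hom.appLE_comp_appLE]
  simp only [w]

theorem algebraMap_comp_constHom (U : C.Opens) :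
    CommRingCat.ofHom (algebraMap k R) ≫ constHom c R U =
      sectionsHom c U ≫ (pullback.fst c (specMap k R)).app U := by
  rw [constHom, sectionsHom, Scheme.ΓSpecIso_inv_naturality_assoc, Category.assoc]
  exact congrArg _ (appTop_comp_appLE pullback.condition U)

/-- Sections of the product from a coordinate ring of `U`. -/
def prodSectionsHom {B : Type u} [CommRing B] [Algebra k B] (U : C.Opens) (e : B ≃+* Γ(C, U))
    (he : ∀ a, e (algebraMap k B a) = sectionsHom c U a) :
    R ⊗[k] B →+* Γ(prodSpec c R, prodOpen c R U) :=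
  letI := ((sectionsHom c U ≫ (pullback.fst c (specMap k R)).app U).hom).toAlgebra
  (Algebra.TensorProduct.lift
    { toRingHom := (constHom c R U).hom
      commutes' := fun a => ConcreteCategory.congr_hom (algebraMap_comp_constHom (R := R) c U) a }
    { toRingHom := ((pullback.fst c (specMap k R)).app U).hom.comp e.toRingHom
      commutes' := fun a => congrArg ((pullback.fst c (specMap k R)).app U) (he a) }
    (fun _ _ => mul_comm _ _)).toRingHom

variable {B : Type u} [CommRing B] [Algebra k B] {U : C.Opens} (e : B ≃+* Γ(C, U))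
  (he : ∀ a, e (algebraMap k B a) = sectionsHom c U a)

theorem prodSectionsHom_tmul (r : R) (b : B) :
    prodSectionsHom c U e he (r ⊗ₜ[k] b) =
      constHom c R U r * (pullback.fst c (specMap k R)).app U (e b) := by
  simp [prodSectionsHom]

include e he in
theorem bijective_prodSectionsHom (hU : IsAffineOpen U) :
    Function.Bijective (prodSectionsHom (R := R) c U e he) := by
  have h1 := (isIso_pushoutSection_iff (IsPullback.of_hasPullback c (specMap k R))
    (US := ⊤) (UT := ⊤) (UX := U) (UY := prodOpen c R U) le_top le_top (inf_top_eq _).symm).mp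
    (isIso_pushoutSection_of_isAffineOpen _ le_top le_top (inf_top_eq _).symm (isAffineOpen_top _)
      (isAffineOpen_top _) hU)
  have h2 : IsPushout (CommRingCat.ofHom (algebraMap k R)) (CommRingCat.ofHom (algebraMap k B))
      (constHom c R U) (CommRingCat.ofHom e.toRingHom ≫ (pullback.fst c (specMap k R)).app U) := by
    refine (h1.flip.of_iso (Scheme.ΓSpecIso (CommRingCat.of k)) (Scheme.ΓSpecIso (CommRingCat.of R))
      e.symm.toCommRingCatIso (Iso.refl _) ?_ ?_ ?_ ?_)
    · exact (congrArg (fun g => g ≫ _) (Scheme.Hom.appLE_eq_app _)).trans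
        (Scheme.ΓSpecIso_naturality _)
    · refine (Iso.inv_comp_eq (Scheme.ΓSpecIso (CommRingCat.of k))).mp ?_
      exact CommRingCat.hom_ext (RingHom.ext fun a =>
        (congrArg e.symm (he a)).symm.trans (e.symm_apply_apply _))
    · simp [constHom]
    · rw [Iso.refl_hom, Category.comp_id, Scheme.Hom.app_eq_appLE, ← Category.assoc]
      simp only [RingEquiv.toCommRingCatIso, ← CommRingCat.ofHom_comp, RingEquiv.toRingHom_eq_coe,
        RingEquiv.comp_symm, CommRingCat.ofHom_id]
      exact (Category.id_comp _).symm
  let f := (CommRingCat.isPushout_tensorProduct k R B).isoIsPushout _ _ h2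
  have hf : CommRingCat.ofHom (prodSectionsHom (R := R) c U e he) = f.hom := by
    apply (CommRingCat.isPushout_tensorProduct k R B).hom_ext
    · rw [IsPushout.inl_isoIsPushout_hom]
      exact CommRingCat.hom_ext (RingHom.ext fun r => by
        simp [prodSectionsHom_tmul])
    · rw [IsPushout.inr_isoIsPushout_hom]
      exact CommRingCat.hom_ext (RingHom.ext fun b => by
        simp [prodSectionsHom_tmul])
  have : IsIso (CommRingCat.ofHom (prodSectionsHom (R := R) c U e he)) := hf ▸ inferInstance
  exact ConcreteCategory.bijective_of_isIso (CommRingCat.ofHom (prodSectionsHom (R := R) c U e he))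

/-- Sections of the product over the preimage of an affine open. -/
def prodSectionsEquiv (hU : IsAffineOpen U) : R ⊗[k] B ≃+* Γ(prodSpec c R, prodOpen c R U) :=
  RingEquiv.ofBijective (prodSectionsHom c U e he) (bijective_prodSectionsHom c e he hU)

include c in
theorem isAffineOpen_prodOpen (hU : IsAffineOpen U) : IsAffineOpen (prodOpen c R U) :=
  have : IsAffineHom (specMap k R) := inferInstance
  have : IsAffineHom (pullback.fst c (specMap k R)) := MorphismProperty.pullback_fst _ _ this
  hU.preimage _

end Fermat.Agent.Pic
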