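import Fermat.Agent.Pic.Bridge.Charted
import Fermat.Agent.Pic.Curve.Cover
import Fermat.Agent.Pic.Curve.Product
import Fermat.Agent.Pic.Repr.Rigid

/-!
# `C × Spec R` presented by the cover of `C`

The preimages of the two charts of a parameter, with their rings of sections, present `C × Spec R`
by the cover.
-/

noncomputable section

universe u

open CategoryTheory CategoryTheory.Limits AlgebraicGeometry AlgebraicCurve TopologicalSpace
open scoped TensorProduct
open Fermat.Agent.Pic.Repr

namespace Fermat.Agent.Pic

variable {k : Type u} [Field k] [IsAlgClosed k] {C : Scheme.{u}} [IsIntegral C]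
  {c : C ⟶ Spec (CommRingCat.of k)} [IsProper c] [SmoothOfRelativeDimension 1 c]

theorem coordEquiv_const (S : Finset (Place k (CurveField c))) (U : C.Opens) [Nonempty U]
    (h : ∀ x : Pt c, x.1 ∈ U ↔ placeAt c x ∉ S) (a : k) :
    coordEquiv S U h (algebraMap k (regularOff (K := k) S) a) = sectionsHom c U a := by
  apply toField_injective c U
  rw [toField_coordEquiv, toField_sectionsHom]
  rfl

namespace Parameter

variable (p : Parameter c)

/-- The complement of the pole. -/
def open0 : C.Opens := openCompl c {p.e}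

/-- The complement of the zeros. -/
def open1 : C.Opens := openCompl c p.zeros

theorem mem_open0 (x : Pt c) :
    x.1 ∈ p.open0 ↔ placeAt c x ∉ ({p.e} : Finset (Place k (CurveField c))) := pt_mem_openCompl c

theorem mem_open1 (x : Pt c) : x.1 ∈ p.open1 ↔ placeAt c x ∉ p.zeros := pt_mem_openCompl c

theorem mem_open01 (x : Pt c) : x.1 ∈ p.open0 ⊓ p.open1 ↔ placeAt c x ∉ p.both := by
  rw [Opens.mem_inf, p.mem_open0, p.mem_open1, mem_both]
  simp

instance : Nonempty p.open0 := nonempty_openCompl c _

instance : Nonempty p.open1 := nonempty_openCompl c _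

instance : Nonempty (p.open0 ⊓ p.open1 : C.Opens) := by
  obtain ⟨v, hv⟩ := exists_place_notMem c p.both
  exact ⟨⟨_, (p.mem_open01 (ptOf c v)).mpr (by rwa [placeAt_ptOf])⟩⟩

theorem sup_open : p.open0 ⊔ p.open1 = ⊤ :=
  top_le_iff.mp <| le_of_forall_pt c fun x _ => by
    rw [Opens.mem_sup, p.mem_open0, p.mem_open1]
    by_cases h : placeAt c x = p.e
    · exact Or.inr (h ▸ p.e_notMem_zeros)
    · exact Or.inl (by simpa using h)

/-- The ring of the first chart as sections of the structure sheaf. -/
def coord0 : p.cover.B0 ≃+* Γ(C, p.open0) := coordEquiv _ _ p.mem_open0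

/-- The ring of the second chart as sections of the structure sheaf. -/
def coord1 : p.cover.B1 ≃+* Γ(C, p.open1) := coordEquiv _ _ p.mem_open1

/-- The ring of the overlap as sections of the structure sheaf. -/
def coord01 : p.cover.B01 ≃+* Γ(C, p.open0 ⊓ p.open1) := coordEquiv _ _ p.mem_open01

theorem res_coord0 (b : p.cover.B0) :
    resF inf_le_left (p.coord0 b) = p.coord01 (p.cover.r0 b) := by
  apply toField_injective c (p.open0 ⊓ p.open1)
  exact (toField_res c _ _).trans
    ((toField_coordEquiv _ _ p.mem_open0 b).trans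
      (toField_coordEquiv _ _ p.mem_open01 (p.cover.r0 b)).symm)

theorem res_coord1 (b : p.cover.B1) :
    resF inf_le_right (p.coord1 b) = p.coord01 (p.cover.r1 b) := by
  apply toField_injective c (p.open0 ⊓ p.open1)
  exact (toField_res c _ _).trans
    ((toField_coordEquiv _ _ p.mem_open1 b).trans
      (toField_coordEquiv _ _ p.mem_open01 (p.cover.r1 b)).symm)

theorem toField_coord0_t0 : toField c p.open0 (p.coord0 p.cover.t0) = p.t :=
  toField_coordEquiv _ _ p.mem_open0 p.cover.t0

theorem toField_coord1_t1 : toField c p.open1 (p.coord1 p.cover.t1) = p.t⁻¹ :=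
  toField_coordEquiv _ _ p.mem_open1 p.cover.t1

theorem basicOpen_coord0 : p.open0 ⊓ p.open1 = C.basicOpen (p.coord0 p.cover.t0) := by
  have key : ∀ x : Pt c, x.1 ∈ p.open0 →
      (x.1 ∈ C.basicOpen (p.coord0 p.cover.t0) ↔ placeAt c x ∉ p.zeros) := fun x hx => by
    rw [pt_mem_basicOpen c hx, p.toField_coord0_t0]
    rw [mem_zeros, and_iff_right p.t_ne]
    have := p.regular _ (by simpa using (p.mem_open0 x).mp hx)
    exact ⟨fun h => by
      show ¬0 < (placeAt c x).ord p.t
      rw [show (placeAt c x).ord p.t = 0 from h]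
      exact lt_irrefl 0, fun h => le_antisymm (not_lt.mp h) this⟩
  refine le_antisymm (le_of_forall_pt c fun x hx => ?_) (le_of_forall_pt c fun x hx => ?_)
  · exact (key x hx.1).mpr ((p.mem_open1 x).mp hx.2)
  · exact ⟨C.basicOpen_le _ hx, (p.mem_open1 x).mpr ((key x (C.basicOpen_le _ hx)).mp hx)⟩

theorem basicOpen_coord1 : p.open0 ⊓ p.open1 = C.basicOpen (p.coord1 p.cover.t1) := by
  have key : ∀ x : Pt c, x.1 ∈ p.open1 →
      (x.1 ∈ C.basicOpen (p.coord1 p.cover.t1) ↔ placeAt c x ≠ p.e) := fun x hx => by
    rw [pt_mem_basicOpen c hx, p.toField_coord1_t1]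
    rw [(placeAt c x).ord_inv, neg_eq_zero, and_iff_right (inv_ne_zero p.t_ne)]
    refine ⟨fun h he => p.pole.ne (he ▸ h), fun h => ?_⟩
    have h1 := p.regular _ h
    have h2 := (p.mem_open1 x).mp hx
    rw [mem_zeros, not_lt] at h2
    omega
  refine le_antisymm (le_of_forall_pt c fun x hx => ?_) (le_of_forall_pt c fun x hx => ?_)
  · exact (key x hx.2).mpr (by simpa using (p.mem_open0 x).mp hx.1)
  · exact ⟨(p.mem_open0 x).mpr (by simpa using (key x (C.basicOpen_le _ hx)).mp hx),
      C.basicOpen_le _ hx⟩

variable (R : Type u) [CommRing R] [Algebra k R]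

theorem isAffineOpen_inf : IsAffineOpen (p.open0 ⊓ p.open1) :=
  p.basicOpen_coord0 ▸ (isAffineOpen_openCompl c (Finset.singleton_nonempty p.e)).basicOpen _

/-- Sections over the first chart of the product. -/
def chart0 : p.cover.RB0 R ≃+* Γ(prodSpec c R, prodOpen c R p.open0) :=
  prodSectionsEquiv c p.coord0 (coordEquiv_const _ _ p.mem_open0)
    (isAffineOpen_openCompl c (Finset.singleton_nonempty p.e))

/-- Sections over the second chart of the product. -/
def chart1 : p.cover.RB1 R ≃+* Γ(prodSpec c R, prodOpen c R p.open1) :=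
  prodSectionsEquiv c p.coord1 (coordEquiv_const _ _ p.mem_open1)
    (isAffineOpen_openCompl c p.zeros_nonempty)

/-- Sections over the overlap of the product. -/
def chart01 : p.cover.RB01 R ≃+* Γ(prodSpec c R, prodOpen c R (p.open0 ⊓ p.open1)) :=
  prodSectionsEquiv c p.coord01 (coordEquiv_const _ _ p.mem_open01) p.isAffineOpen_inf

omit [IsAlgClosed k] [IsIntegral C] [IsProper c] [SmoothOfRelativeDimension 1 c] in
theorem resF_constHom {U V : C.Opens} (h : U ≤ V) (r : R) :
    resF ((pullback.fst c (specMap k R)).preimage_mono h) (constHom c R V r) =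
      constHom c R U r := by
  have : constHom c R V ≫ (prodSpec c R).presheaf.map
      (homOfLE ((pullback.fst c (specMap k R)).preimage_mono h)).op = constHom c R U := by
    rw [constHom, constHom, Category.assoc, Scheme.Hom.appLE_map]
  exact ConcreteCategory.congr_hom this r

omit [IsAlgClosed k] [IsIntegral C] [IsProper c] [SmoothOfRelativeDimension 1 c] in
/-- Restriction of sections of the product is restriction in the first factor. -/
theorem resF_prodSectionsEquiv {U V : C.Opens} (h : U ≤ V) {B B' : Type u} [CommRing B]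
    [Algebra k B] [CommRing B'] [Algebra k B'] {e : B ≃+* Γ(C, V)}
    (he : ∀ a, e (algebraMap k B a) = sectionsHom c V a) (hV : IsAffineOpen V)
    {e' : B' ≃+* Γ(C, U)} (he' : ∀ a, e' (algebraMap k B' a) = sectionsHom c U a)
    (hU : IsAffineOpen U) (r : B →ₐ[k] B') (hr : ∀ b, resF h (e b) = e' (r b)) (a : R ⊗[k] B) :
    resF ((pullback.fst c (specMap k R)).preimage_mono h) (prodSectionsEquiv c e he hV a) =
      prodSectionsEquiv c e' he' hU (Algebra.TensorProduct.map (AlgHom.id R R) r a) := by
  induction a using TensorProduct.induction_on with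
  | zero => simp only [map_zero]; exact map_zero ((prodSpec c R).presheaf.map _).hom
  | tmul x b =>
    rw [Algebra.TensorProduct.map_tmul, AlgHom.id_apply, prodSectionsEquiv, prodSectionsEquiv,
      RingEquiv.ofBijective_apply, RingEquiv.ofBijective_apply, prodSectionsHom_tmul,
      prodSectionsHom_tmul, resF_mul, ← hr, app_resF, resF_constHom R h]
  | add x y hx hy =>
    simp only [map_add, ← hx, ← hy]
    exact map_add ((prodSpec c R).presheaf.map _).hom _ _

theorem res_chart0 (a : p.cover.RB0 R) :
    resF (inf_le_left : prodOpen c R p.open0 ⊓ prodOpen c R p.open1 ≤ prodOpen c R p.open0)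
      (p.chart0 R a) = p.chart01 R (p.cover.ρ0 R a) :=
  resF_prodSectionsEquiv R inf_le_left _ _ _ _ p.cover.r0 p.res_coord0 a

theorem res_chart1 (a : p.cover.RB1 R) :
    resF (inf_le_right : prodOpen c R p.open0 ⊓ prodOpen c R p.open1 ≤ prodOpen c R p.open1)
      (p.chart1 R a) = p.chart01 R (p.cover.ρ1 R a) :=
  resF_prodSectionsEquiv R inf_le_right _ _ _ _ p.cover.r1 p.res_coord1 a

/-- `C × Spec R` with the charts of the cover. -/
def charted : Bridge.Charted p.cover R (prodSpec c R) where
  U0 := prodOpen c R p.open0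
  U1 := prodOpen c R p.open1
  affine0 := isAffineOpen_prodOpen c (isAffineOpen_openCompl c (Finset.singleton_nonempty p.e))
  affine1 := isAffineOpen_prodOpen c (isAffineOpen_openCompl c p.zeros_nonempty)
  cover := by
    rw [prodOpen, prodOpen, ← Scheme.Hom.preimage_sup, p.sup_open, Scheme.Hom.preimage_top]
  e0 := p.chart0 R
  e1 := p.chart1 R
  e01 := p.chart01 R
  res0 := p.res_chart0 R
  res1 := p.res_chart1 R
  basic0 := by
    have h : p.chart0 R (p.cover.T0 R) =
        (pullback.fst c (specMap k R)).app _ (p.coord0 p.cover.t0) := by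
      rw [chart0, prodSectionsEquiv, RingEquiv.ofBijective_apply, prodSectionsHom_tmul, map_one,
        one_mul]
    rw [h, ← Scheme.preimage_basicOpen, ← p.basicOpen_coord0]
    rfl
  basic1 := by
    have h : p.chart1 R (p.cover.T1 R) =
        (pullback.fst c (specMap k R)).app _ (p.coord1 p.cover.t1) := by
      rw [chart1, prodSectionsEquiv, RingEquiv.ofBijective_apply, prodSectionsHom_tmul, map_one,
        one_mul]
    rw [h, ← Scheme.preimage_basicOpen, ← p.basicOpen_coord1]
    rfl

end Parameter

end Fermat.Agent.Pic
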