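import Fermat.Prelude.Def_AlgebraicGeometry_RelativePicardFunctor
import Fermat.Agent.Pic.Curve.Charts

/-!
# The charts of `C × Spec R` commute with base change

The presentations of `C × Spec R` are compatible with the maps `Spec R' → Spec R`.
-/

noncomputable section

universe u

open CategoryTheory CategoryTheory.Limits AlgebraicGeometry AlgebraicCurve TopologicalSpace
open scoped TensorProduct
open AlgebraicGeometry.RelPicard NeronModelInfra
open Fermat.Agent.Pic.Repr

namespace Fermat.Agent.Pic

variable {k : Type u} [Field k] {C : Scheme.{u}} (c : C ⟶ Spec (CommRingCat.of k))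
  (R R' : Type u) [CommRing R] [CommRing R'] [Algebra k R] [Algebra k R'] [Algebra R R']
  [IsScalarTower k R R']

/-- The map `Spec R' → Spec R` over `k`. -/
def specOver : SchemeHomOver (specMap k R') (specMap k R) :=
  ⟨Spec.map (CommRingCat.ofHom (algebraMap R R')), by
    rw [← Spec.map_comp, ← CommRingCat.ofHom_comp, ← IsScalarTower.algebraMap_eq]⟩

/-- The map `C × Spec R' → C × Spec R`. -/
abbrev prodMap : prodSpec c R' ⟶ prodSpec c R := baseChangeSnd c (specOver (k := k) R R')

theorem prodMap_fst :
    prodMap c R R' ≫ pullback.fst c (specMap k R) = pullback.fst c (specMap k R') := by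
  exact (pullback.lift_fst _ _ _).trans (Category.comp_id _)

theorem prodMap_snd :
    prodMap c R R' ≫ pullback.snd c (specMap k R) =
      pullback.snd c (specMap k R') ≫ Spec.map (CommRingCat.ofHom (algebraMap R R')) := by
  exact pullback.lift_snd _ _ _

theorem preimage_prodOpen (U : C.Opens) :
    prodMap c R R' ⁻¹ᵁ prodOpen c R U = prodOpen c R' U := by
  rw [prodOpen, prodOpen, ← Scheme.Hom.comp_preimage, prodMap_fst]

theorem app_constHom (U : C.Opens) (r : R) :
    resF (preimage_prodOpen c R R' U).ge ((prodMap c R R').app _ (constHom c R U r)) =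
      constHom c R' U (algebraMap R R' r) := by
  have key : constHom c R U ≫ (prodMap c R R').appLE (prodOpen c R U) (prodOpen c R' U)
      (preimage_prodOpen c R R' U).ge =
      CommRingCat.ofHom (algebraMap R R') ≫ constHom c R' U := by
    rw [constHom, constHom, Category.assoc, Scheme.Hom.appLE_comp_appLE]
    simp only [prodMap_snd]
    rw [Scheme.ΓSpecIso_inv_naturality_assoc]
    exact congrArg _ (Scheme.Hom.comp_appLE (pullback.snd c (specMap k R'))
      (Spec.map (CommRingCat.ofHom (algebraMap R R'))) ⊤ _ le_top)
  exact ConcreteCategory.congr_hom key r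

theorem app_prodFst (U : C.Opens) (b : Γ(C, U)) :
    resF (preimage_prodOpen c R R' U).ge
      ((prodMap c R R').app _ ((pullback.fst c (specMap k R)).app U b)) =
      (pullback.fst c (specMap k R')).app U b := by
  have key : (pullback.fst c (specMap k R)).app U ≫
      (prodMap c R R').appLE (prodOpen c R U) (prodOpen c R' U)
        (preimage_prodOpen c R R' U).ge = (pullback.fst c (specMap k R')).app U := by
    rw [Scheme.Hom.app_eq_appLE, Scheme.Hom.app_eq_appLE, Scheme.Hom.appLE_comp_appLE]
    simp only [prodMap_fst]
  exact ConcreteCategory.congr_hom key b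

/-- The map `C × Spec R' → C × Spec R` on sections over the preimage of an affine open. -/
theorem app_prodSectionsEquiv {U : C.Opens} {B : Type u} [CommRing B] [Algebra k B]
    {e : B ≃+* Γ(C, U)} (he : ∀ a, e (algebraMap k B a) = sectionsHom c U a) (hU : IsAffineOpen U)
    (a : R ⊗[k] B) :
    resF (preimage_prodOpen c R R' U).ge ((prodMap c R R').app _ (prodSectionsEquiv c e he hU a)) =
      prodSectionsEquiv c e he hU
        (Algebra.TensorProduct.map (IsScalarTower.toAlgHom k R R') (AlgHom.id k B) a) := by
  induction a using TensorProduct.induction_on with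
  | zero => simp only [map_zero]; exact map_zero ((prodSpec c R').presheaf.map _).hom
  | tmul r b =>
    rw [Algebra.TensorProduct.map_tmul, AlgHom.id_apply, IsScalarTower.toAlgHom_apply,
      prodSectionsEquiv, prodSectionsEquiv, RingEquiv.ofBijective_apply,
      RingEquiv.ofBijective_apply, prodSectionsHom_tmul, prodSectionsHom_tmul, map_mul, resF_mul,
      app_constHom, app_prodFst]
  | add x y hx hy =>
    simp only [map_add, ← hx, ← hy]
    exact map_add ((prodSpec c R').presheaf.map _).hom _ _

namespace Parameter

variable {c} [IsAlgClosed k] [IsIntegral C] [IsProper c] [SmoothOfRelativeDimension 1 c]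
  (p : Parameter c)

/-- The change of base rings respects the charts. -/
theorem isHom_charted : (p.charted R).IsHom (p.charted R') (prodMap c R R') where
  pre0 := preimage_prodOpen c R R' _
  pre1 := preimage_prodOpen c R R' _
  app0 a := app_prodSectionsEquiv c R R' (coordEquiv_const _ _ p.mem_open0)
    (isAffineOpen_openCompl c (Finset.singleton_nonempty p.e)) a
  app1 a := app_prodSectionsEquiv c R R' (coordEquiv_const _ _ p.mem_open1)
    (isAffineOpen_openCompl c p.zeros_nonempty) a

end Parameter

end Fermat.Agent.Pic
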