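import Mathlib.RingTheory.Etale.Kaehler
import Mathlib.RingTheory.Unramified.Field
import Fermat.Agent.FF.Basic
import Fermat.Agent.Pic.Curve.Stalk

/-!
# The function field of a smooth curve is a function field of one variable

The function field of a smooth integral curve is finitely generated of transcendence degree one
over the ground field.
-/

noncomputable section

universe u

open CategoryTheory AlgebraicGeometry
open scoped TensorProduct KaehlerDifferential

namespace Fermat.Agent.Pic

/-- A field generated by a finitely generated algebra with one-dimensional differentials is a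
function field of one variable. -/
theorem isFunctionField_of_fractionRing {k A F : Type u} [Field k] [IsAlgClosed k] [CommRing A]
    [IsDomain A]
    [Algebra k A] [Algebra.IsStandardSmoothOfRelativeDimension 1 k A] [Field F] [Algebra A F]
    [Algebra k F] [IsScalarTower k A F] [IsFractionRing A F] :
    FF.IsFunctionField k F := by
  have : Algebra.IsStandardSmooth k A :=
    Algebra.IsStandardSmoothOfRelativeDimension.isStandardSmooth 1
  have hfin : Module.finrank A Ω[A⁄k] = 1 := Module.finrank_eq_of_rank_eq
    (Algebra.IsStandardSmoothOfRelativeDimension.rank_kaehlerDifferential (R := k) (S := A) 1)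
  have : Algebra.FormallyEtale A F := Algebra.FormallyEtale.of_isLocalization (nonZeroDivisors A)
  have : Algebra.EssFiniteType A F := Algebra.EssFiniteType.of_isLocalization F (nonZeroDivisors A)
  have : Algebra.EssFiniteType k F := Algebra.EssFiniteType.comp k A F
  let e := KaehlerDifferential.tensorKaehlerEquivOfFormallyEtale k A F
  have h1 : Module.finrank F Ω[F⁄k] = 1 := by
    rw [← e.finrank_eq, Module.finrank_baseChange, hfin]
  obtain ⟨x, hx⟩ : ∃ x : F, KaehlerDifferential.D k F x ≠ 0 := by
    by_contra! h
    have : (⊤ : Submodule F Ω[F⁄k]) = ⊥ := by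
      rw [← KaehlerDifferential.span_range_derivation, Submodule.span_eq_bot]
      rintro _ ⟨a, rfl⟩
      exact h a
    rw [← finrank_top F Ω[F⁄k], this, finrank_bot] at h1
    exact zero_ne_one h1
  set E := IntermediateField.adjoin k ({x} : Set F)
  have : Algebra.EssFiniteType E F := Algebra.EssFiniteType.of_comp k E F
  have : Algebra.FormallyUnramified E F := by
    refine ⟨subsingleton_of_forall_eq 0 fun w => ?_⟩
    obtain ⟨w, rfl⟩ := KaehlerDifferential.map_surjective k E F w
    obtain ⟨a, rfl⟩ := (finrank_eq_one_iff_of_nonzero' _ hx).mp h1 w
    rw [map_smul, KaehlerDifferential.map_D, Algebra.algebraMap_self, RingHom.id_apply,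
      show x = algebraMap E F ⟨x, IntermediateField.mem_adjoin_simple_self k x⟩ from rfl,
      Derivation.map_algebraMap, smul_zero]
  have : Module.Finite E F := Algebra.FormallyUnramified.finite_of_free E F
  exact ⟨⟨x, (FF.mem_range_or_transcendental x).resolve_left fun ⟨a, ha⟩ =>
    hx (ha ▸ Derivation.map_algebraMap _ a), this⟩⟩

variable {k : Type u} [Field k] {C : Scheme.{u}} [IsIntegral C]

/-- The function field of `C`, remembering the base. -/
def CurveField (_c : C ⟶ Spec (CommRingCat.of k)) : Type u := C.functionField

variable (c : C ⟶ Spec (CommRingCat.of k))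

instance : Field (CurveField c) := inferInstanceAs (Field C.functionField)

/-- The structure map `k → K(C)`. -/
def curveFieldHom : k →+* CurveField c :=
  haveI : Nonempty (⊤ : C.Opens) := ⟨⟨genericPoint C, trivial⟩⟩
  (sectionsHom c ⊤ ≫ C.germToFunctionField ⊤).hom

instance : Algebra k (CurveField c) := (curveFieldHom c).toAlgebra

/-- Sections over a nonempty open as elements of the function field. -/
def toField (U : C.Opens) [Nonempty U] : Γ(C, U) →+* CurveField c :=
  (C.germToFunctionField U).hom

omit [AlgebraicGeometry.IsIntegral C] in
theorem sectionsHom_map {U V : C.Opens} (h : U ≤ V) :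
    sectionsHom c V ≫ C.presheaf.map (homOfLE h).op = sectionsHom c U := by
  simp [sectionsHom]

theorem toField_sectionsHom (U : C.Opens) [Nonempty U] (a : k) :
    toField c U ((sectionsHom c U).hom a) = algebraMap k (CurveField c) a := by
  rw [← sectionsHom_map c (le_top : U ≤ ⊤)]
  exact TopCat.Presheaf.germ_res_apply C.presheaf (homOfLE le_top) (genericPoint C) _
    ((sectionsHom c ⊤).hom a)

variable [IsAlgClosed k] [SmoothOfRelativeDimension 1 c]

instance : FF.IsFunctionField k (CurveField c) := by
  obtain ⟨x⟩ := (inferInstance : Nonempty C)
  obtain ⟨V, hV, hxV, hs⟩ := exists_affine_standardSmooth c x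
  have : Nonempty V := ⟨⟨x, hxV⟩⟩
  algebraize [(sectionsHom c V).hom]
  let : Algebra Γ(C, V) (CurveField c) := (toField c V).toAlgebra
  have : IsScalarTower k Γ(C, V) (CurveField c) :=
    IsScalarTower.of_algebraMap_eq fun a => (toField_sectionsHom c V a).symm
  have : IsFractionRing Γ(C, V) (CurveField c) :=
      functionField_isFractionRing_of_isAffineOpen C V hV
  exact isFunctionField_of_fractionRing (A := Γ(C, V))

end Fermat.Agent.Pic
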