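import Fermat.Agent.Pic.Field.Index
import Fermat.Agent.Pic.Field.Points

/-!
# The cover of a parameter has enough rational points

The overlap of the two charts of a parameter has infinitely many rational points, a nonzero
function vanishes at only finitely many of them, and the parameter is not invertible on the first
chart.
-/

noncomputable section

universe u

open CategoryTheory AlgebraicGeometry AlgebraicCurve

namespace Fermat.Agent.Pic

variable {k : Type u} [Field k] [IsAlgClosed k] {C : Scheme.{u}} [IsIntegral C]
  {c : C ⟶ Spec (CommRingCat.of k)} [IsProper c] [SmoothOfRelativeDimension 1 c]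

theorem Parameter.not_isUnit_t0 (p : Parameter c) : ¬ IsUnit p.cover.t0 := by
  intro hu
  obtain ⟨b, hb⟩ := hu.exists_right_inv
  obtain ⟨v, hv⟩ := p.zeros_nonempty
  have h1 : p.t * (b : regularOff (K := k) ({p.e} : Finset (Place k (CurveField c)))).1 = 1 :=
      congrArg Subtype.val hb
  have hb0 : (b : regularOff (K := k) ({p.e} : Finset (Place k (CurveField c)))).1 = p.t⁻¹ :=
      eq_inv_of_mul_eq_one_right h1
  have h2 : v ∉ ({p.e} : Finset (Place k (CurveField c))) := fun h => by
    rw [Finset.mem_singleton] at h
    exact p.e_notMem_zeros (h ▸ hv)
  have h3 := mem_regularOff.mp b.2 v h2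
  rw [hb0, v.ord_inv] at h3
  have h4 := p.mem_zeros.mp hv
  omega

instance Parameter.hasPoints (p : Parameter c) : p.cover.HasPoints where
  infinite_points := p.infinite_points
  finite_zero_points _ hb := p.finite_zero_points hb
  finite_zeros0 := p.finite_zeros0
  not_isUnit_t0 := p.not_isUnit_t0

end Fermat.Agent.Pic
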