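import Mathlib.AlgebraicGeometry.ValuativeCriterion
import Fermat.Agent.FF.Places
import Fermat.Agent.Pic.Curve.FunctionField

/-!
# Closed points of a proper smooth curve are the places of its function field

The local ring at a closed point is the valuation ring of a place, and every place is obtained
exactly once.
-/

noncomputable section

universe u

open CategoryTheory CategoryTheory.Limits AlgebraicGeometry AlgebraicCurve

namespace Fermat.Agent.Pic

variable {k : Type u} [Field k] {C : Scheme.{u}} [IsIntegral C]
  (c : C ⟶ Spec (CommRingCat.of k))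

omit [IsIntegral C] in
theorem fromSpecStalk_comp_structure (x : C) :
    C.fromSpecStalk x ≫ c =
      Spec.map (sectionsHom c ⊤ ≫ C.presheaf.germ ⊤ x trivial) := by
  have h : c = C.toSpecΓ ≫ Spec.map (sectionsHom c ⊤) := by
    have e : sectionsHom c ⊤ = (Scheme.ΓSpecIso (CommRingCat.of k)).inv ≫ c.appTop := by
      simp [sectionsHom, Scheme.Hom.appLE]
    rw [e, Spec.map_comp, ← Scheme.toSpecΓ_naturality_assoc]
    simp
  conv_lhs => rw [h]
  rw [Spec.map_comp, ← Scheme.fromSpecStalk_toSpecΓ, Category.assoc]

/-- The stalk at a point inside the function field. -/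
def stalkToField (x : C) : C.presheaf.stalk x →+* CurveField c :=
  algebraMap (C.presheaf.stalk x) C.functionField

theorem stalkToField_injective (x : C) : Function.Injective (stalkToField c x) :=
  IsFractionRing.injective (C.presheaf.stalk x) C.functionField

theorem stalkToField_germ {U : C.Opens} [Nonempty U] {x : C} (hx : x ∈ U) (f : Γ(C, U)) :
    stalkToField c x (C.presheaf.germ U x hx f) = toField c U f :=
  Scheme.algebraMap_germ_eq_germToFunctionField (X := C) hx f

theorem stalkToField_const (x : C) (a : k) :
    stalkToField c x (C.presheaf.germ ⊤ x trivial ((sectionsHom c ⊤).hom a)) =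
      algebraMap k (CurveField c) a := by
  have : Nonempty (⊤ : C.Opens) := ⟨⟨x, trivial⟩⟩
  rw [stalkToField_germ, toField_sectionsHom]

variable [IsAlgClosed k] [SmoothOfRelativeDimension 1 c]

/-- The closed points of `C`. -/
abbrev Pt (_c : C ⟶ Spec (CommRingCat.of k)) : Type u := {x : C // IsClosed ({x} : Set C)}

/-- The valuation ring of a closed point. -/
def valRing (x : Pt c) : ValuationSubring (CurveField c) :=
  ValuationSubring.ofSubring (stalkToField c x.1).range fun f => by
    have := isDiscreteValuationRing_stalk c x.1 x.2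
    obtain h | h := ValuationRing.isInteger_or_isInteger (C.presheaf.stalk x.1)
        (K := C.functionField) f
    · exact Or.inl h
    · exact Or.inr h

theorem mem_valRing_iff {x : Pt c} {f : CurveField c} :
    f ∈ valRing c x ↔ ∃ a, stalkToField c x.1 a = f := Iff.rfl

theorem const_mem_valRing (x : Pt c) (a : k) : algebraMap k (CurveField c) a ∈ valRing c x :=
  ⟨_, stalkToField_const c x.1 a⟩

theorem valRing_ne_top (x : Pt c) : valRing c x ≠ ⊤ := by
  intro h
  have := isDiscreteValuationRing_stalk c x.1 x.2
  refine IsDiscreteValuationRing.not_isField (C.presheaf.stalk x.1) ?_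
  refine MulEquiv.isField (B := CurveField c) (Field.toIsField _)
    (RingEquiv.ofBijective (stalkToField c x.1) ⟨stalkToField_injective c x.1, fun f =>
      (mem_valRing_iff c).mp (h ▸ trivial)⟩).toMulEquiv

/-- The place of a closed point. -/
def placeAt (x : Pt c) : Place k (CurveField c) :=
  FF.placeOfValuationSubring (valRing c x) (const_mem_valRing c x) (valRing_ne_top c x)

theorem mem_placeAt {x : Pt c} {f : CurveField c} :
    f ∈ (placeAt c x).toValuationSubring ↔ ∃ a, stalkToField c x.1 a = f := Iff.rfl

variable [IsProper c]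

/-- The generic point as a morphism from the spectrum of the function field. -/
def genericMap : Spec (CommRingCat.of (CurveField c)) ⟶ C :=
  C.fromSpecStalk (genericPoint C)

/-- Closed points with the same valuation ring are equal, by the valuative criterion. -/
theorem placeAt_injective : Function.Injective (placeAt c) := by
  intro x y hxy
  set A := (placeAt c x).toValuationSubring
  let fx : C.presheaf.stalk x.1 ⟶ CommRingCat.of A := CommRingCat.ofHom
    ((stalkToField c x.1).codRestrict A.toSubring fun a => ⟨a, rfl⟩)
  let fy : C.presheaf.stalk y.1 ⟶ CommRingCat.of A := CommRingCat.ofHom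
    ((stalkToField c y.1).codRestrict A.toSubring fun a => by
      show stalkToField c y.1 a ∈ A
      rw [show A = (placeAt c y).toValuationSubring from congrArg Place.toValuationSubring hxy]
      exact ⟨a, rfl⟩)
  let incl : CommRingCat.of A ⟶ CommRingCat.of (CurveField c) :=
    CommRingCat.ofHom (algebraMap A (CurveField c))
  have hgen : ∀ (z : Pt c) (f : C.presheaf.stalk z.1 ⟶ CommRingCat.of A),
      (∀ a, (f a : CurveField c) = stalkToField c z.1 a) →
      Spec.map incl ≫ Spec.map f ≫ C.fromSpecStalk z.1 = genericMap c := by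
    intro z f hf
    rw [← Spec.map_comp_assoc,
      show f ≫ incl = C.presheaf.stalkSpecializes ((genericPoint_spec C).specializes trivial) from
        CommRingCat.hom_ext (RingHom.ext hf)]
    exact Scheme.SpecMap_stalkSpecializes_fromSpecStalk _
  let toBase : CommRingCat.of k ⟶ CommRingCat.of A :=
    CommRingCat.ofHom (algebraMap k (placeAt c x).toValuationSubring)
  have hbase : ∀ (z : Pt c) (f : C.presheaf.stalk z.1 ⟶ CommRingCat.of A),
      (∀ a, (f a : CurveField c) = stalkToField c z.1 a) →
      (Spec.map f ≫ C.fromSpecStalk z.1) ≫ c = Spec.map toBase := by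
    intro z f hf
    rw [Category.assoc, fromSpecStalk_comp_structure, ← Spec.map_comp]
    congr 1
    exact CommRingCat.hom_ext (RingHom.ext fun a =>
      Subtype.ext ((hf _).trans (stalkToField_const c z.1 a)))
  let S : ValuativeCommSq c :=
    { R := A, K := CurveField c, i₁ := genericMap c, i₂ := Spec.map toBase
      commSq := ⟨by rw [← hgen x fx (fun _ => rfl), Category.assoc, hbase x fx (fun _ => rfl)]⟩ }
  have := IsSeparated.valuativeCriterion c S
  have h := congrArg CommSq.LiftStruct.l (Subsingleton.elim
    (⟨Spec.map fx ≫ C.fromSpecStalk x.1, hgen x fx (fun _ => rfl), hbase x fx (fun _ => rfl)⟩ :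
      S.commSq.LiftStruct)
    ⟨Spec.map fy ≫ C.fromSpecStalk y.1, hgen y fy (fun _ => rfl), hbase y fy (fun _ => rfl)⟩)
  have hloc : ∀ (z : Pt c) (f : C.presheaf.stalk z.1 ⟶ CommRingCat.of A),
      placeAt c z = placeAt c x →
      (∀ a, (f a : CurveField c) = stalkToField c z.1 a) →
      (Spec.map f ≫ C.fromSpecStalk z.1) (IsLocalRing.closedPoint A) = z.1 := by
    intro z f hz hf
    have : IsLocalHom f.hom := ⟨fun a ha => by
      obtain ⟨b, hb⟩ := isUnit_iff_exists_inv.mp ha
      obtain ⟨b', hb'⟩ : ∃ b', stalkToField c z.1 b' = (b : CurveField c) :=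
        (mem_placeAt c).mp (hz ▸ b.2)
      refine isUnit_iff_exists_inv.mpr ⟨b', stalkToField_injective c z.1 ?_⟩
      rw [map_mul, map_one, hb', ← hf]
      exact congrArg Subtype.val hb⟩
    rw [Scheme.Hom.comp_apply, show Spec.map f (IsLocalRing.closedPoint A) =
      IsLocalRing.closedPoint (C.presheaf.stalk z.1) from Spec_closedPoint (f := f)]
    exact Scheme.fromSpecStalk_closedPoint
  refine Subtype.ext ?_
  rw [← hloc x fx rfl (fun _ => rfl), ← hloc y fy hxy.symm (fun _ => rfl)]
  exact congrArg (fun g : Spec (CommRingCat.of A) ⟶ C => g (IsLocalRing.closedPoint A)) h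

omit [IsProper c] in
include c in
theorem isClosed_of_ne_genericPoint {x : C} (hx : x ≠ genericPoint C) :
    IsClosed ({x} : Set C) := by
  obtain ⟨z, hz, hzc⟩ : ∃ z, z ∈ closure ({x} : Set C) ∧ IsClosed ({z} : Set C) := by
    have := SmoothOfRelativeDimension.smooth 1 c
    have : JacobsonSpace C := LocallyOfFiniteType.jacobsonSpace c
    exact nonempty_inter_closedPoints ⟨x, subset_closure rfl⟩ isClosed_closure.isLocallyClosed
  suffices z = x from this ▸ hzc
  by_contra hne
  have hspec : x ⤳ z := specializes_iff_mem_closure.mpr hz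
  have := isDiscreteValuationRing_stalk c z hzc
  obtain ⟨p, hp⟩ : x ∈ Set.range (C.fromSpecStalk z) := Scheme.range_fromSpecStalk ▸ hspec
  have hcases : p.asIdeal = ⊥ ∨ p.asIdeal = IsLocalRing.maximalIdeal _ := by
    by_cases h : p.asIdeal = ⊥
    · exact Or.inl h
    · exact Or.inr (IsLocalRing.eq_maximalIdeal (p.2.isMaximal h))
  rcases hcases with h | h
  · apply hx
    set φ := C.presheaf.stalkSpecializes
      ((genericPoint_spec C).specializes (trivial : z ∈ (Set.univ : Set C)))
    have hp0 : p = Spec.map φ (IsLocalRing.closedPoint C.functionField) := by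
      refine PrimeSpectrum.ext (h.trans ?_)
      change ⊥ = (IsLocalRing.maximalIdeal C.functionField).comap φ.hom
      rw [IsLocalRing.isField_iff_maximalIdeal_eq.mp (Field.toIsField _)]
      exact ((RingHom.injective_iff_ker_eq_bot φ.hom).mp
        (IsFractionRing.injective (C.presheaf.stalk z) C.functionField)).symm
    rw [← hp, hp0, ← Scheme.Hom.comp_apply, Scheme.SpecMap_stalkSpecializes_fromSpecStalk]
    exact Scheme.fromSpecStalk_closedPoint
  · apply hne
    rw [← hp, show p = IsLocalRing.closedPoint _ from PrimeSpectrum.ext h]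
    exact Scheme.fromSpecStalk_closedPoint.symm

/-- Every place is centred at a closed point. -/
theorem placeAt_surjective : Function.Surjective (placeAt c) := by
  intro v
  set A := v.toValuationSubring
  let incl : CommRingCat.of A ⟶ CommRingCat.of (CurveField c) :=
    CommRingCat.ofHom (algebraMap A (CurveField c))
  let toBase : CommRingCat.of k ⟶ CommRingCat.of A := CommRingCat.ofHom (algebraMap k A)
  have comm : genericMap c ≫ c = Spec.map incl ≫ Spec.map toBase := by
    refine (fromSpecStalk_comp_structure c (genericPoint C)).trans ?_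
    rw [← Spec.map_comp]
    rfl
  let S : ValuativeCommSq c :=
    { R := A, K := CurveField c, i₁ := genericMap c, i₂ := Spec.map toBase, commSq := ⟨comm⟩ }
  have hc : ValuativeCriterion c := by
    have h : IsProper c := inferInstance
    rw [IsProper.eq_valuativeCriterion] at h
    exact h.1.1.1
  obtain ⟨l, hl₁, -⟩ := (hc.existence S).exists_lift
  change Spec.map incl ≫ l = genericMap c at hl₁
  set x := l (IsLocalRing.closedPoint A)
  let φ : C.presheaf.stalk x ⟶ CommRingCat.of A := Scheme.stalkClosedPointTo l
  have hφ : φ ≫ incl = C.presheaf.stalkSpecializes ((genericPoint_spec C).specializes trivial) := by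
    have h2 : (Spec.map (φ ≫ incl)) ≫ C.fromSpecStalk x = Spec.map
        (C.presheaf.stalkSpecializes ((genericPoint_spec C).specializes trivial)) ≫
          C.fromSpecStalk x := by
      rw [Spec.map_comp, Category.assoc, Scheme.Spec_stalkClosedPointTo_fromSpecStalk, hl₁,
        Scheme.SpecMap_stalkSpecializes_fromSpecStalk]
      rfl
    exact Spec.map_injective ((cancel_mono (C.fromSpecStalk x)).mp h2)
  have hle : ∀ a, stalkToField c x a ∈ A := fun a => by
    rw [show stalkToField c x a = incl (φ a) from
      (ConcreteCategory.congr_hom hφ a).symm]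
    exact (φ a).2
  have hxη : x ≠ genericPoint C := by
    intro hη
    refine v.ne_top' (SetLike.ext fun f => ⟨fun _ => trivial, fun _ => ?_⟩)
    obtain ⟨a, rfl⟩ : ∃ a, stalkToField c x a = f := by
      have hsp : x ⤳ genericPoint C := hη ▸ specializes_rfl
      refine ⟨C.presheaf.stalkSpecializes hsp f, ?_⟩
      exact (TopCat.Presheaf.stalkSpecializes_comp_apply C.presheaf _ hsp f).trans
        (by simp)
    exact hle a
  refine ⟨⟨x, isClosed_of_ne_genericPoint c hxη⟩, FF.eq_of_toValuationSubring_le ?_⟩
  rintro f hf
  obtain ⟨a, rfl⟩ := (mem_placeAt c).mp hf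
  exact hle a

/-- Closed points are places. -/
def ptEquivPlace : Pt c ≃ Place k (CurveField c) :=
  Equiv.ofBijective (placeAt c) ⟨placeAt_injective c, placeAt_surjective c⟩

end Fermat.Agent.Pic
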