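import Fermat.Agent.Pic.Cech.Divisor
import Fermat.Agent.Pic.Power.Curve

/-!
# The charts of a parameter are smooth affine curves

The rings of the two charts of a parameter and of their overlap are Dedekind domains which are not
fields, as required of smooth charts.
-/

noncomputable section

universe u

open CategoryTheory AlgebraicGeometry AlgebraicCurve

namespace Fermat.Agent.Pic

variable {k : Type u} [Field k] [IsAlgClosed k] {C : Scheme.{u}} [IsIntegral C]
  {c : C ⟶ Spec (CommRingCat.of k)} [IsProper c] [SmoothOfRelativeDimension 1 c]

instance Parameter.smoothCharts (p : Parameter c) : p.cover.SmoothCharts where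
  dedekind0 := Power.isDedekindDomain_regularOff c (Finset.singleton_nonempty p.e)
  dedekind1 := Power.isDedekindDomain_regularOff c p.zeros_nonempty
  dedekind01 := Power.isDedekindDomain_regularOff c (Power.both_nonempty p)
  not_isField0 := Power.not_isField_regularOff c (Finset.singleton_nonempty p.e)
  not_isField1 := Power.not_isField_regularOff c p.zeros_nonempty
  not_isField01 := Power.not_isField_regularOff c (Power.both_nonempty p)

end Fermat.Agent.Pic
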